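/-
S44, block X, sub-block EIS (owner helper103): "a constant slope vector is Eisenstein".

Definitions:
* `betaFk`   : `f(q) ↦ f(q^ℓ)`, from `k(X₀(M))` to `k(X₀(M ℓ))`
* `heckeFk`  : the multiplicative Hecke operator `Norm_α ∘ β` in characteristic `p`
* `TS ξ ℓ`   : the formal operator `f ↦ f(q^(ℓ²)) ∏_b f(ξ^b q)` (`= (T_ℓ f)(q^ℓ)`)
* `OffCusp`  : `n ∣ ord_w f` at all non-cuspidal places
* `NodeEisW` : the weak form of `NodeEis` which is what `NodeDiv4` needs.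
-/
import Fermat.Agent.S44.X.Div4
import Fermat.Agent.C1.Red.Field
import Fermat.Agent.C1.Red.Ops

set_option autoImplicit false

noncomputable section

namespace Fermat.Agent.S44.X.Eis

open ModularCurve AlgebraicCurve Fermat.Agent.S24 Fermat.Agent.S24.B Fermat.Agent.GAL
  Fermat.Agent.Lib.EtaUnit

/-- `f(q) ↦ f(q^ℓ)` from `k(X₀(M))` to `k(X₀(M ℓ))`. -/
def betaFk (A : ValuationSubring Qb) (M ℓ : ℕ) [NeZero M] [NeZero ℓ] :
    Fk A M →ₐ[kA A] Fk A (M * ℓ) :=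
  ((qExpandAlgHomC (kA A) ℓ).comp (modularFunctionFieldFullC (kA A) M).val).codRestrict
    (modularFunctionFieldFullC (kA A) (M * ℓ)).toSubalgebra
    (fun x => full_degeneracyC_map_le (kA A) M ℓ ⟨x, x.2, rfl⟩)

@[simp] theorem coe_betaFk (A : ValuationSubring Qb) (M ℓ : ℕ) [NeZero M] [NeZero ℓ] (x : Fk A M) :
    ((betaFk A M ℓ x : Fk A (M * ℓ)) : LaurentSeries (kA A)) =
      qExpand (kA A) ℓ (x : LaurentSeries (kA A)) := rfl

/-- `k(X₀(M ℓ))` as an algebra over `k(X₀(M))` through the inclusion `α`. -/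
abbrev algFk (A : ValuationSubring Qb) (M ℓ : ℕ) [NeZero M] [NeZero ℓ] :
    Algebra (Fk A M) (Fk A (M * ℓ)) :=
  (inclFk A M ℓ).toRingHom.toAlgebra

/-- The norm along `α` in characteristic `p`. -/
def normFk (A : ValuationSubring Qb) (M ℓ : ℕ) [NeZero M] [NeZero ℓ] : Fk A (M * ℓ) →* Fk A M :=
  letI := algFk A M ℓ
  Algebra.norm (Fk A M)

/-- The multiplicative Hecke operator `Norm_α ∘ β` in characteristic `p`. -/
def heckeFk (A : ValuationSubring Qb) (M ℓ : ℕ) [NeZero M] [NeZero ℓ] : Fk A M →* Fk A M :=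
  (normFk A M ℓ).comp ((betaFk A M ℓ : Fk A M →+* Fk A (M * ℓ)) : Fk A M →* Fk A (M * ℓ))

/-- The formal operator `f ↦ f(q^(ℓ²)) ∏_{b < ℓ} f(ξ^b q)`. -/
def TS {C : Type*} [Field C] (ξ : Cˣ) (ℓ : ℕ) [NeZero ℓ] : LaurentSeries C →*₀ LaurentSeries C where
  toFun f := qExpand C (ℓ * ℓ) f * ∏ b ∈ Finset.range ℓ, twist (ξ ^ b) f
  map_zero' := by simp
  map_one' := by simp
  map_mul' f g := by
    simp only [map_mul, Finset.prod_mul_distrib]
    ring

theorem TS_apply {C : Type*} [Field C] (ξ : Cˣ) (ℓ : ℕ) [NeZero ℓ] (f : LaurentSeries C) :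
    TS ξ ℓ f = qExpand C (ℓ * ℓ) f * ∏ b ∈ Finset.range ℓ, twist (ξ ^ b) f := rfl

/-- an integral power series as a Laurent series over a field `C` -/
def toLC (C : Type*) [Field C] (P : PowerSeries ℤ) : LaurentSeries C :=
  HahnSeries.ofPowerSeries ℤ C (P.map (Int.castRingHom C))

/-- `ζ_ℓ` as a unit of `A`. -/
def zetaA (A : ValuationSubring Qb) (ℓ : ℕ) [NeZero ℓ] : Aˣ :=
  (C1.exists_unit_of_pow_eq_one A (zetaK ℓ) ℓ (NeZero.ne ℓ)
    (isPrimitiveRoot_zetaK ℓ).pow_eq_one).choose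

theorem coe_zetaA (A : ValuationSubring Qb) (ℓ : ℕ) [NeZero ℓ] :
    ((zetaA A ℓ : A) : Qb) = (zetaK ℓ : Qb) :=
  (C1.exists_unit_of_pow_eq_one A (zetaK ℓ) ℓ (NeZero.ne ℓ)
    (isPrimitiveRoot_zetaK ℓ).pow_eq_one).choose_spec

/-- The reduction of `ζ_ℓ`. -/
def xi (A : ValuationSubring Qb) (ℓ : ℕ) [NeZero ℓ] : (kA A)ˣ :=
  Units.map (IsLocalRing.residue A : A →* kA A) (zetaA A ℓ)

/-- `n ∣ ord_w f` at all non-cuspidal places `w` of `k(X₀(M))`. -/
def OffCusp (A : ValuationSubring Qb) (M : ℕ) (n : ℤ) (f : Fk A M) : Prop :=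
  ∀ w : Place (kA A) (Fk A M), 0 ≤ w.ord (jk A M) → n ∣ w.ord f

/-- **Node Eis, weak form**: this is what `NodeDiv4` needs (no supersingular point is needed). -/
def NodeEisW : Prop :=
  ∀ (P : FreyPackage) (M' : ℕ) [NeZero M'], Squarefree (M' * P.p) →
    ∀ A : ValuationSubring Qb, A.LiesOverPrime P.p →
      ∀ (W : WeierstrassCurve ℤ) (u₀ u₁ : E.kum (M' * P.p) P.p), NewPair P M' A W u₀ u₁ →
        ∀ ubar : Fk A M', IsRed A (fn u₁) (ubar : LaurentSeries (kA A)) →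
        ∀ xbar : Fk A (M' * 4), IsRed A (xU P.p M' (coprime_four P)) (xbar : LaurentSeries (kA A)) →
          ∀ c : ℤ, (∀ w : Place (kA A) (Fk A (M' * 4)), 0 ≤ w.ord (jk A (M' * 4)) →
              (P.p : ℤ) ∣ w.ord (inclFk A M' 4 ubar) - c * w.ord xbar) →
            ∀ w : Place (kA A) (Fk A (M' * 4)), 0 ≤ w.ord (jk A (M' * 4)) →
              (P.p : ℤ) ∣ c * w.ord xbar

theorem nodeDiv4_of_weak (hR : NodeRed) (hS : NodeSlope) (hE : NodeEisW) : NodeDiv4 := by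
  intro P M' _ hsq A hA W u₀ u₁ hN ubar hu
  have hpM : ¬ P.p ∣ M' := by
    rintro ⟨c, rfl⟩
    have h := Nat.squarefree_iff_prime_squarefree.mp hsq P.p P.pp
    exact h ⟨c, by ring⟩
  have hpM4 : ¬ P.p ∣ M' * 4 := by
    intro h
    exact hpM ((coprime_four P).dvd_of_dvd_mul_right h)
  have hx0 : xU P.p M' (coprime_four P) ≠ 0 := unitF_ne_zero isW1_G4 _ _ _ _
  obtain ⟨xbar, hx⟩ := hR P.p (M' * 4) P.pp hpM4 A hA _ hx0
  rcases hS P M' hsq A hA W u₀ u₁ hN ubar hu xbar hx with hT | ⟨c, h1, h2⟩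
  · exact Or.inl hT
  · refine Or.inr fun w => ?_
    rcases lt_or_ge (w.ord (jk A (M' * 4))) 0 with hw | hw
    · exact h2 w hw
    · have h3 := h1 w hw
      have h4 : (P.p : ℤ) ∣ c * w.ord xbar := hE P M' hsq A hA W u₀ u₁ hN ubar hu xbar hx c h1 w hw
      have := dvd_add h3 h4
      simpa using this

/-- `IsRed` at the level of series. -/
theorem redS_of_isRed {A : ValuationSubring Qb} {N : ℕ} {u : FN N} {ubar : LaurentSeries (kA A)}
    (h : IsRed A u ubar) : ∃ c : Qb, C1.RedS A (u : LaurentSeries Qb) c ubar := by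
  obtain ⟨c, x, y, hx, hy, hc, hrx, hry, hu, hub⟩ := h
  refine ⟨c, ?_⟩
  have := C1.RedField.redS_of_scaling hx hy hc hrx hry hu
  rwa [← hub, mul_div_cancel_right₀ _ hry] at this

end Fermat.Agent.S44.X.Eis

end
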