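/-
S44 / X / EIS (architect helper103), leaf `JInt` (task EIS-5a, helper292):
`j(q^ℓ)` is integral over `k[j(q)]` in characteristic `p` (reduction of `S37.jInt`), and
`k(X₀(M ℓ))` is algebraic over `β(k(X₀(M)))`.
-/
import Fermat.Agent.S44.X.Eis.Defs
import Fermat.Agent.S37.JInt

set_option autoImplicit false

noncomputable section

namespace Fermat.Agent.S44.X.Eis

open ModularCurve AlgebraicCurve Fermat.Agent.S24 Fermat.Agent.S24.B Fermat.Agent.GAL
  Fermat.Agent.Lib.EtaUnit

/-! ### generalities -/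

theorem jInt_coeffMap_injective {R S : Type*} [CommRing R] [CommRing S] {f : R →+* S}
    (hf : Function.Injective f) : Function.Injective (coeffMap f) := by
  intro x y h
  ext k
  apply hf
  have := congrArg (fun z => HahnSeries.coeff z k) h
  simpa using this

/-- transport of a relation over `ℤ` along a ring homomorphism -/
theorem jInt_map_eval₂_aeval {A B : Type*} [CommRing A] [CommRing B] [Algebra ℤ A] [Algebra ℤ B]
    (g : A →+* B) (a x : A) (Φ : Polynomial (Polynomial ℤ)) :
    g (Polynomial.eval₂ (Polynomial.aeval (R := ℤ) a).toRingHom x Φ) =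
      Polynomial.eval₂ (Polynomial.aeval (R := ℤ) (g a)).toRingHom (g x) Φ := by
  rw [Polynomial.hom_eval₂]
  congr 1
  refine Polynomial.ringHom_ext (fun c => ?_) ?_
  · simp
  · simp

/-- transport of a relation over `k` along a `k`-algebra homomorphism -/
theorem jInt_map_eval₂_aeval_alg {k A B : Type*} [CommRing k] [CommRing A] [CommRing B]
    [Algebra k A] [Algebra k B] (g : A →ₐ[k] B) (a x : A) (Φ : Polynomial (Polynomial k)) :
    g (Polynomial.eval₂ (Polynomial.aeval (R := k) a).toRingHom x Φ) =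
      Polynomial.eval₂ (Polynomial.aeval (R := k) (g a)).toRingHom (g x) Φ := by
  have h := Polynomial.hom_eval₂ Φ (Polynomial.aeval (R := k) a).toRingHom (g : A →+* B) x
  rw [RingHom.coe_coe] at h
  rw [h]
  congr 1
  refine Polynomial.ringHom_ext (fun c => ?_) ?_
  · simp
  · simp

/-- from a relation over `ℤ` to a relation over `k` -/
theorem jInt_eval₂_map_int {k B : Type*} [CommRing k] [CommRing B] [Algebra k B] [Algebra ℤ B]
    (a x : B)
    (Φ : Polynomial (Polynomial ℤ)) :
    Polynomial.eval₂ (Polynomial.aeval (R := k) a).toRingHom x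
        (Φ.map (Polynomial.mapRingHom (Int.castRingHom k))) =
      Polynomial.eval₂ (Polynomial.aeval (R := ℤ) a).toRingHom x Φ := by
  rw [Polynomial.eval₂_map]
  congr 1
  refine Polynomial.ringHom_ext (fun c => ?_) ?_
  · simp
  · simp

/-! ### the relations over `ℤ` -/

theorem jInt_Jser (d : ℕ) [NeZero d] :
    Jser d = coeffMap (Int.castRingHom Kbar) (qExpand ℤ d (jqModC ℤ)) := by
  rw [coeffMap_qExpand, coeffMap_jqModC]
  show coeffMap (algebraMap ℚ Kbar) (qExpand ℚ d jq) = _
  rw [coeffMap_qExpand, ← jqModC_rat, coeffMap_jqModC]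

theorem jInt_Jser_one : Jser 1 = coeffMap (Int.castRingHom Kbar) (jqModC ℤ) := by
  rw [jInt_Jser, qExpand_one_apply]

/-- `j(q^d)` is integral over `ℤ[j(q)]`, in `ℤ((q))` -/
theorem jInt_exists_int (d : ℕ) [NeZero d] :
    ∃ Φ : Polynomial (Polynomial ℤ), Φ.Monic ∧
      Polynomial.eval₂ (Polynomial.aeval (R := ℤ) (jqModC ℤ)).toRingHom
        (qExpand ℤ d (jqModC ℤ)) Φ = 0 := by
  obtain ⟨Φ, hΦ, h⟩ := (Fermat.Agent.S37.jInt d d dvd_rfl).1
  refine ⟨Φ, hΦ, ?_⟩
  have h1 := congrArg (algebraMap (FN d) (LaurentSeries Kbar)) h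
  rw [jInt_map_eval₂_aeval, map_zero] at h1
  have e1 : algebraMap (FN d) (LaurentSeries Kbar) (jF d) =
      coeffMap (Int.castRingHom Kbar) (jqModC ℤ) := jInt_Jser_one
  have e2 : algebraMap (FN d) (LaurentSeries Kbar) (JF d d dvd_rfl) =
      coeffMap (Int.castRingHom Kbar) (qExpand ℤ d (jqModC ℤ)) := jInt_Jser d
  rw [e1, e2, ← jInt_map_eval₂_aeval] at h1
  exact jInt_coeffMap_injective (RingHom.injective_int _) (h1.trans (map_zero _).symm)

/-- `j(q)` is integral over `ℤ[j(q^d)]`, in `ℤ((q))` -/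
theorem jInt_exists_int' (d : ℕ) [NeZero d] :
    ∃ Φ : Polynomial (Polynomial ℤ), Φ.Monic ∧
      Polynomial.eval₂ (Polynomial.aeval (R := ℤ) (qExpand ℤ d (jqModC ℤ))).toRingHom
        (jqModC ℤ) Φ = 0 := by
  obtain ⟨Φ, hΦ, h⟩ := (Fermat.Agent.S37.jInt d d dvd_rfl).2
  refine ⟨Φ, hΦ, ?_⟩
  have h1 := congrArg (algebraMap (FN d) (LaurentSeries Kbar)) h
  rw [jInt_map_eval₂_aeval, map_zero] at h1
  have e1 : algebraMap (FN d) (LaurentSeries Kbar) (jF d) =
      coeffMap (Int.castRingHom Kbar) (jqModC ℤ) := jInt_Jser_one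
  have e2 : algebraMap (FN d) (LaurentSeries Kbar) (JF d d dvd_rfl) =
      coeffMap (Int.castRingHom Kbar) (qExpand ℤ d (jqModC ℤ)) := jInt_Jser d
  rw [e1, e2, ← jInt_map_eval₂_aeval] at h1
  exact jInt_coeffMap_injective (RingHom.injective_int _) (h1.trans (map_zero _).symm)

/-! ### the relations over an arbitrary field -/

/-- `j(q^d)` is integral over `k[j(q)]`, in `k((q))` -/
theorem jInt_exists_field (k : Type*) [Field k] (d : ℕ) [NeZero d] :
    ∃ Φ : Polynomial (Polynomial k), Φ.Monic ∧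
      Polynomial.eval₂ (Polynomial.aeval (R := k) (jqModC k)).toRingHom
        (qExpand k d (jqModC k)) Φ = 0 := by
  obtain ⟨Φ, hΦ, h⟩ := jInt_exists_int d
  refine ⟨Φ.map (Polynomial.mapRingHom (Int.castRingHom k)), hΦ.map _, ?_⟩
  have h1 := congrArg (coeffMap (Int.castRingHom k)) h
  rw [jInt_map_eval₂_aeval, map_zero, coeffMap_qExpand, coeffMap_jqModC] at h1
  rw [jInt_eval₂_map_int, h1]

/-- `j(q)` is integral over `k[j(q^d)]`, in `k((q))` -/
theorem jInt_exists_field' (k : Type*) [Field k] (d : ℕ) [NeZero d] :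
    ∃ Φ : Polynomial (Polynomial k), Φ.Monic ∧
      Polynomial.eval₂ (Polynomial.aeval (R := k) (qExpand k d (jqModC k))).toRingHom
        (jqModC k) Φ = 0 := by
  obtain ⟨Φ, hΦ, h⟩ := jInt_exists_int' d
  refine ⟨Φ.map (Polynomial.mapRingHom (Int.castRingHom k)), hΦ.map _, ?_⟩
  have h1 := congrArg (coeffMap (Int.castRingHom k)) h
  rw [jInt_map_eval₂_aeval, map_zero, coeffMap_qExpand, coeffMap_jqModC] at h1
  rw [jInt_eval₂_map_int, h1]

/-! ### E5: the Hecke operator preserves `n ∣ ord` off the cusps -/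

/-- `j(q^ℓ)` is integral over `k[j(q)]` -/
theorem exists_monic_jk (A : ValuationSubring Qb) (M ℓ : ℕ) [NeZero M] [NeZero ℓ] :
    ∃ Φ : Polynomial (Polynomial (kA A)), Φ.Monic ∧
      Polynomial.eval₂ (Polynomial.aeval (R := kA A) (jk A (M * ℓ))).toRingHom
        (betaFk A M ℓ (jk A M)) Φ = 0 := by
  obtain ⟨Φ, hΦ, h⟩ := jInt_exists_field (kA A) ℓ
  refine ⟨Φ, hΦ, ?_⟩
  apply (modularFunctionFieldFullC (kA A) (M * ℓ)).val.toRingHom.injective
  show (modularFunctionFieldFullC (kA A) (M * ℓ)).val _ =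
    (modularFunctionFieldFullC (kA A) (M * ℓ)).val 0
  rw [jInt_map_eval₂_aeval_alg, map_zero]
  exact h

/-! ### algebraicity -/

section Alg

variable {k F E : Type*} [Field k] [Field F] [Field E] [Algebra k F] [Algebra k E]

/-- a root of a monic polynomial whose coefficients are polynomials in an integral element is
integral -/
theorem jInt_isIntegralElem_of_eval₂ (g : F →ₐ[k] E) (a y : E)
    (ha : g.toRingHom.IsIntegralElem a) (Φ : Polynomial (Polynomial k)) (hΦ : Φ.Monic)
    (h : Polynomial.eval₂ (Polynomial.aeval (R := k) a).toRingHom y Φ = 0) :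
    g.toRingHom.IsIntegralElem y := by
  let _ : Algebra F E := g.toRingHom.toAlgebra
  have : IsScalarTower k F E := IsScalarTower.of_algebraMap_eq fun c => (g.commutes c).symm
  have ha' : IsIntegral F a := ha
  show IsIntegral F y
  refine Fermat.Agent.S37.JIntAux.isIntegral_of_monic_of_coeff
    (Φ.map (Polynomial.aeval (R := k) a).toRingHom) (hΦ.map _) (fun n => ?_) y ?_
  · rw [Polynomial.coeff_map]
    show IsIntegral F (Polynomial.aeval a (Φ.coeff n))
    rw [← Polynomial.aeval_map_algebraMap F]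
    have hle : Algebra.adjoin F {a} ≤ integralClosure F E :=
      Algebra.adjoin_le (Set.singleton_subset_iff.2 ha')
    exact hle (Polynomial.aeval_mem_adjoin_singleton F a)
  · rw [Polynomial.eval_map, h]

/-- a field generated over `k` by elements which are integral over `F` is integral over `F` -/
theorem jInt_isIntegralElem_of_mem_adjoin (g : F →ₐ[k] E) (S : Set E)
    (hS : ∀ s ∈ S, g.toRingHom.IsIntegralElem s) (y : E) (hy : y ∈ IntermediateField.adjoin k S) :
    g.toRingHom.IsIntegralElem y := by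
  let _ : Algebra F E := g.toRingHom.toAlgebra
  have : IsScalarTower k F E := IsScalarTower.of_algebraMap_eq fun c => (g.commutes c).symm
  have hle : IntermediateField.adjoin k S ≤ (algebraicClosure F E).restrictScalars k := by
    rw [IntermediateField.adjoin_le_iff]
    intro s hs
    show s ∈ algebraicClosure F E
    rw [mem_algebraicClosure_iff']
    exact hS s hs
  have h1 : y ∈ algebraicClosure F E := hle hy
  rw [mem_algebraicClosure_iff'] at h1
  exact h1

end Alg

/-- `k(X₀(M ℓ))` is algebraic over `β(k(X₀(M)))` -/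
theorem betaFk_isIntegral (A : ValuationSubring Qb) (M ℓ : ℕ) [NeZero M] [NeZero ℓ] :
    (betaFk A M ℓ).toRingHom.IsIntegral := by
  let g : Fk A M →ₐ[kA A] LaurentSeries (kA A) :=
    (modularFunctionFieldFullC (kA A) (M * ℓ)).val.comp (betaFk A M ℓ)
  -- `j(q^ℓ)` is in the image
  have h1 : g.toRingHom.IsIntegralElem (qExpand (kA A) ℓ (jqModC (kA A))) :=
    g.toRingHom.isIntegralElem_map (x := jk A M)
  -- `j`
  have h2 : g.toRingHom.IsIntegralElem (jqModC (kA A)) := by
    obtain ⟨Φ, hΦ, h⟩ := jInt_exists_field' (kA A) ℓ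
    exact jInt_isIntegralElem_of_eval₂ g _ _ h1 Φ hΦ h
  -- all the elements
  have h3 : ∀ y ∈ modularFunctionFieldFullC (kA A) (M * ℓ), g.toRingHom.IsIntegralElem y := by
    refine jInt_isIntegralElem_of_mem_adjoin g _ ?_
    rintro _ ⟨d, hd, -, rfl⟩
    obtain ⟨Φ, hΦ, h⟩ := jInt_exists_field (kA A) d
    exact jInt_isIntegralElem_of_eval₂ g _ _ h2 Φ hΦ h
  intro x
  obtain ⟨P, hP, h⟩ := h3 x x.2
  refine ⟨P, hP, ?_⟩
  apply (modularFunctionFieldFullC (kA A) (M * ℓ)).val.toRingHom.injective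
  rw [Polynomial.hom_eval₂, map_zero]
  exact h

end Fermat.Agent.S44.X.Eis

end
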