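/-
S44 / X / EIS (architect helper103, proof helper282).  Leaf `Euler`: the formal Euler product identity
`E(q^(ℓ²)) ∏_b E(ξ^b q) = E(q^ℓ)^(ℓ+1)`, `E = ∏ (1 - q^n)`.

Proof: a finite identity for the partial products (induction on blocks of length `ℓ`), then passage
to the limit in the `X`-adic (= product) topology of `C⟦X⟧`, `C` discrete.
-/
import Fermat.Agent.S44.X.Eis.Defs

set_option autoImplicit false
set_option linter.unusedSectionVars false

noncomputable section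

namespace Fermat.Agent.S44.X.Eis

open ModularCurve AlgebraicCurve Fermat.Agent.S24 Fermat.Agent.S24.B Fermat.Agent.GAL
  Fermat.Agent.Lib.EtaUnit

section Formal

open PowerSeries Filter Topology Finset
open scoped PowerSeries.WithPiTopology

/-- `∏_{b<n} (x - ζ^b y) = x^n - y^n`. -/
theorem Euler_prod_range_sub {R : Type*} [CommRing R] [IsDomain R] {ζ : R} {n : ℕ} (hpos : 0 < n)
    (h : IsPrimitiveRoot ζ n) (x y : R) :
    ∏ b ∈ range n, (x - ζ ^ b * y) = x ^ n - y ^ n := by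
  classical
  rw [h.pow_sub_pow_eq_prod_sub_mul x y hpos]
  have him : Polynomial.nthRootsFinset n (1 : R) = (range n).image (fun b => ζ ^ b) := by
    symm
    apply Finset.eq_of_subset_of_card_le
    · intro z hz
      obtain ⟨b, -, rfl⟩ := Finset.mem_image.mp hz
      rw [Polynomial.mem_nthRootsFinset hpos, ← pow_mul, mul_comm, pow_mul, h.pow_eq_one, one_pow]
    · rw [h.card_nthRootsFinset, Finset.card_image_of_injOn, card_range]
      intro a ha b hb hab
      exact h.pow_inj (by simpa using ha) (by simpa using hb) hab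
  rw [him, Finset.prod_image]
  intro a ha b hb hab
  exact h.pow_inj (by simpa using ha) (by simpa using hb) hab

variable {C : Type*} [Field C]

/-- the partial products -/
noncomputable def EulerE (R : Type*) [CommRing R] (D : ℕ) : PowerSeries R :=
  ∏ n ∈ range D, (1 - (X : PowerSeries R) ^ (n + 1))

/-- the factor `∏_b (1 - (ξ^b X)^(n+1))` -/
theorem Euler_factor (ξ : C) (ℓ : ℕ) (hℓ : ℓ.Prime) (hξ : IsPrimitiveRoot ξ ℓ) (n : ℕ) :
    ∏ b ∈ range ℓ, (1 - (PowerSeries.C (ξ ^ b) * (X : PowerSeries C)) ^ n) =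
      if ℓ ∣ n then (1 - (X : PowerSeries C) ^ n) ^ ℓ else 1 - (X : PowerSeries C) ^ (n * ℓ) := by
  split_ifs with hd
  · obtain ⟨k, rfl⟩ := hd
    have : ∀ b ∈ range ℓ, (1 - (PowerSeries.C (ξ ^ b) * (X : PowerSeries C)) ^ (ℓ * k)) =
        1 - (X : PowerSeries C) ^ (ℓ * k) := by
      intro b _
      rw [mul_pow, ← map_pow, ← pow_mul, mul_comm b, mul_assoc, pow_mul, hξ.pow_eq_one, one_pow,
        map_one, one_mul]
    rw [Finset.prod_congr rfl this, Finset.prod_const, card_range]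
  · have hcop : Nat.Coprime n ℓ := ((Nat.Prime.coprime_iff_not_dvd hℓ).2 hd).symm
    have h1 : IsPrimitiveRoot (ξ ^ n) ℓ := hξ.pow_of_coprime n hcop
    have h2 : IsPrimitiveRoot (PowerSeries.C (ξ ^ n) : PowerSeries C) ℓ :=
      h1.map_of_injective (PowerSeries.C_injective)
    have := Euler_prod_range_sub hℓ.pos h2 (1 : PowerSeries C) ((X : PowerSeries C) ^ n)
    rw [one_pow, ← pow_mul] at this
    rw [← this]
    refine Finset.prod_congr rfl fun b _ => ?_
    rw [mul_pow, ← map_pow, ← map_pow, ← pow_mul, ← pow_mul, mul_comm b]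


/-- the factor attached to `n` -/
noncomputable def EulerG (C : Type*) [Field C] (ℓ n : ℕ) : PowerSeries C :=
  if ℓ ∣ n then (1 - (X : PowerSeries C) ^ n) ^ ℓ else 1 - (X : PowerSeries C) ^ (n * ℓ)

theorem Euler_block (ℓ : ℕ) (hℓ : 0 < ℓ) (D : ℕ) :
    (∏ r ∈ range ℓ, EulerG C ℓ (D * ℓ + r + 1)) * (1 - (X : PowerSeries C) ^ ((D + 1) * (ℓ * ℓ))) =
      (∏ r ∈ range ℓ, (1 - (X : PowerSeries C) ^ ((D * ℓ + r + 1) * ℓ))) *
        (1 - (X : PowerSeries C) ^ ((D + 1) * ℓ)) ^ ℓ := by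
  obtain ⟨k, hk⟩ : ∃ k, ℓ = k + 1 := ⟨ℓ - 1, by omega⟩
  have hr : range ℓ = range (k + 1) := by rw [hk]
  rw [hr, prod_range_succ, prod_range_succ]
  have h1 : ∀ r ∈ range k, EulerG C ℓ (D * ℓ + r + 1) =
      1 - (X : PowerSeries C) ^ ((D * ℓ + r + 1) * ℓ) := by
    intro r hr
    have hr' : r < k := by simpa using hr
    have hnd : ¬ ℓ ∣ D * ℓ + r + 1 := by
      intro hd
      have h2 : ℓ ∣ r + 1 := by
        have h3 : ℓ ∣ D * ℓ + (r + 1) := by rwa [← add_assoc]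
        exact (Nat.dvd_add_right (Dvd.intro_left D rfl)).mp h3
      have := Nat.le_of_dvd (Nat.succ_pos r) h2
      omega
    rw [EulerG, if_neg hnd]
  have h2 : D * ℓ + k + 1 = (D + 1) * ℓ := by rw [add_mul, one_mul, add_assoc, ← hk]
  have h3 : EulerG C ℓ (D * ℓ + k + 1) = (1 - (X : PowerSeries C) ^ ((D + 1) * ℓ)) ^ ℓ := by
    rw [h2, EulerG, if_pos (Dvd.intro_left (D + 1) rfl)]
  rw [prod_congr rfl h1, h3, h2, mul_assoc (D + 1) ℓ ℓ]
  ring

theorem Euler_finite (ℓ : ℕ) (hℓ : 0 < ℓ) (D : ℕ) :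
    (∏ m ∈ range D, (1 - (X : PowerSeries C) ^ ((m + 1) * (ℓ * ℓ)))) *
        ∏ n ∈ range (D * ℓ), EulerG C ℓ (n + 1) =
      (∏ n ∈ range (D * ℓ), (1 - (X : PowerSeries C) ^ ((n + 1) * ℓ))) *
        (∏ m ∈ range D, (1 - (X : PowerSeries C) ^ ((m + 1) * ℓ))) ^ ℓ := by
  induction D with
  | zero => simp
  | succ D ih =>
    have hb := Euler_block (C := C) ℓ hℓ D
    rw [add_mul, one_mul, prod_range_add (fun n => EulerG C ℓ (n + 1)),
      prod_range_add (fun n => 1 - (X : PowerSeries C) ^ ((n + 1) * ℓ)), prod_range_succ,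
      prod_range_succ, mul_pow]
    calc _ = ((∏ m ∈ range D, (1 - (X : PowerSeries C) ^ ((m + 1) * (ℓ * ℓ)))) *
        ∏ n ∈ range (D * ℓ), EulerG C ℓ (n + 1)) *
          ((∏ r ∈ range ℓ, EulerG C ℓ (D * ℓ + r + 1)) *
            (1 - (X : PowerSeries C) ^ ((D + 1) * (ℓ * ℓ)))) := by ring
      _ = _ := by rw [ih, hb]; ring

theorem Euler_expand_E (m : ℕ) (hm : m ≠ 0) (D : ℕ) :
    PowerSeries.expand m hm (EulerE C D) = ∏ n ∈ range D, (1 - (X : PowerSeries C) ^ ((n + 1) * m)) := by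
  rw [EulerE, map_prod]
  refine prod_congr rfl fun n _ => ?_
  rw [map_sub, map_one, map_pow, PowerSeries.expand_X, ← pow_mul, mul_comm]

theorem Euler_rescale_E (a : C) (D : ℕ) :
    PowerSeries.rescale a (EulerE C D) =
      ∏ n ∈ range D, (1 - (PowerSeries.C a * (X : PowerSeries C)) ^ (n + 1)) := by
  rw [EulerE, map_prod]
  refine prod_congr rfl fun n _ => ?_
  rw [map_sub, map_one, map_pow, PowerSeries.rescale_X]

/-- the finite identity -/
theorem Euler_finite' (ξ : C) (ℓ : ℕ) (hℓ : ℓ.Prime) (hξ : IsPrimitiveRoot ξ ℓ) (D : ℕ) :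
    PowerSeries.expand (ℓ * ℓ) (mul_ne_zero hℓ.ne_zero hℓ.ne_zero) (EulerE C D) *
        ∏ b ∈ range ℓ, PowerSeries.rescale (ξ ^ b) (EulerE C (D * ℓ)) =
      PowerSeries.expand ℓ hℓ.ne_zero (EulerE C (D * ℓ)) *
        PowerSeries.expand ℓ hℓ.ne_zero (EulerE C D) ^ ℓ := by
  simp only [Euler_expand_E, Euler_rescale_E]
  rw [Finset.prod_comm]
  have : ∀ n ∈ range (D * ℓ), ∏ b ∈ range ℓ,
      (1 - (PowerSeries.C (ξ ^ b) * (X : PowerSeries C)) ^ (n + 1)) = EulerG C ℓ (n + 1) :=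
    fun n _ => Euler_factor ξ ℓ hℓ hξ (n + 1)
  rw [prod_congr rfl this]
  exact Euler_finite ℓ hℓ.pos D


theorem Euler_map_E (D : ℕ) :
    PowerSeries.map (Int.castRingHom C) (EulerE ℤ D) = EulerE C D := by
  rw [EulerE, EulerE, map_prod]
  refine prod_congr rfl fun n _ => ?_
  rw [map_sub, map_one, map_pow, PowerSeries.map_X]

section Limit

variable [TopologicalSpace C] [DiscreteTopology C]

theorem Euler_tendsto_E :
    Tendsto (fun D => EulerE C D) atTop
      (𝓝 (PowerSeries.map (Int.castRingHom C) ModularCurve.etaProd)) := by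
  have h0 : Tendsto (fun D => EulerE ℤ D) atTop (𝓝 ModularCurve.etaProd) :=
    (PowerSeries.WithPiTopology.multipliable_one_sub_X_pow ℤ).hasProd.tendsto_prod_nat
  rw [PowerSeries.WithPiTopology.tendsto_iff_coeff_tendsto] at h0 ⊢
  intro d
  have h1 := ((continuous_of_discreteTopology (f := (Int.castRingHom C : ℤ → C))).tendsto _).comp
    (h0 d)
  refine h1.congr fun D => ?_
  rw [← Euler_map_E, PowerSeries.coeff_map]
  rfl

theorem Euler_tendsto_expand (m : ℕ) (hm : m ≠ 0) {F : ℕ → PowerSeries C} {G : PowerSeries C}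
    (h : Tendsto F atTop (𝓝 G)) :
    Tendsto (fun D => PowerSeries.expand m hm (F D)) atTop (𝓝 (PowerSeries.expand m hm G)) := by
  rw [PowerSeries.WithPiTopology.tendsto_iff_coeff_tendsto] at h ⊢
  intro d
  simp only [PowerSeries.coeff_expand]
  split_ifs
  · exact h _
  · exact tendsto_const_nhds

theorem Euler_tendsto_rescale (a : C) {F : ℕ → PowerSeries C} {G : PowerSeries C}
    (h : Tendsto F atTop (𝓝 G)) :
    Tendsto (fun D => PowerSeries.rescale a (F D)) atTop (𝓝 (PowerSeries.rescale a G)) := by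
  rw [PowerSeries.WithPiTopology.tendsto_iff_coeff_tendsto] at h ⊢
  intro d
  simp only [PowerSeries.coeff_rescale]
  exact (h d).const_mul _

end Limit

/-- the identity for power series -/
theorem Euler_powerSeries (ξ : C) (ℓ : ℕ) (hℓ : ℓ.Prime) (hξ : IsPrimitiveRoot ξ ℓ) :
    PowerSeries.expand (ℓ * ℓ) (mul_ne_zero hℓ.ne_zero hℓ.ne_zero)
        (PowerSeries.map (Int.castRingHom C) ModularCurve.etaProd) *
        ∏ b ∈ range ℓ, PowerSeries.rescale (ξ ^ b)
          (PowerSeries.map (Int.castRingHom C) ModularCurve.etaProd) =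
      PowerSeries.expand ℓ hℓ.ne_zero
        (PowerSeries.map (Int.castRingHom C) ModularCurve.etaProd) ^ (ℓ + 1) := by
  let _ : TopologicalSpace C := ⊥
  have : DiscreteTopology C := ⟨rfl⟩
  have h := Euler_tendsto_E (C := C)
  have hsub : Tendsto (fun D : ℕ => D * ℓ) atTop atTop :=
    tendsto_atTop_mono (fun D => Nat.le_mul_of_pos_right D hℓ.pos) tendsto_id
  have h' : Tendsto (fun D => EulerE C (D * ℓ)) atTop
      (𝓝 (PowerSeries.map (Int.castRingHom C) ModularCurve.etaProd)) := h.comp hsub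
  have L := (Euler_tendsto_expand (ℓ * ℓ) (mul_ne_zero hℓ.ne_zero hℓ.ne_zero) h).mul
    (tendsto_finsetProd (range ℓ) fun b _ => Euler_tendsto_rescale (ξ ^ b) h')
  have Rr := (Euler_tendsto_expand ℓ hℓ.ne_zero h').mul
    ((Euler_tendsto_expand ℓ hℓ.ne_zero h).pow ℓ)
  simp only [Euler_finite' ξ ℓ hℓ hξ] at L
  rw [pow_succ']
  exact tendsto_nhds_unique L Rr


/-- `qExpand` on power series is `PowerSeries.expand`. -/
theorem Euler_qExpand_ofPowerSeries (m : ℕ) [NeZero m] (hm : m ≠ 0) (P : PowerSeries C) :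
    qExpand C m (HahnSeries.ofPowerSeries ℤ C P) =
      HahnSeries.ofPowerSeries ℤ C (PowerSeries.expand m hm P) := by
  have h1 : ∀ (g : PowerSeries C) (j : ℕ), (HahnSeries.ofPowerSeries ℤ C g).coeff (j : ℤ)
      = PowerSeries.coeff j g := fun g j => (PowerSeries.coeff_coe g j).trans (by simp)
  have h2 : ∀ (g : PowerSeries C) (n : ℤ), n < 0 → (HahnSeries.ofPowerSeries ℤ C g).coeff n = 0 := by
    intro g n hn
    refine (PowerSeries.coeff_coe g n).trans ?_
    rw [if_pos hn]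
  have hmpos : (0 : ℤ) < (m : ℤ) := by exact_mod_cast Nat.pos_of_ne_zero hm
  ext n
  by_cases hd : (m : ℤ) ∣ n
  · obtain ⟨k, rfl⟩ := hd
    rw [qExpand_coeff_mul]
    by_cases hk : 0 ≤ k
    · obtain ⟨j, rfl⟩ := Int.eq_ofNat_of_zero_le hk
      rw [h1, ← Nat.cast_mul, h1, PowerSeries.coeff_expand_mul]
    · rw [h2 _ k (by omega), h2 _ _ (mul_neg_of_pos_of_neg hmpos (by omega))]
  · rw [qExpand_coeff_of_not_dvd _ _ hd]
    by_cases hn : 0 ≤ n
    · obtain ⟨j, rfl⟩ := Int.eq_ofNat_of_zero_le hn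
      rw [h1, PowerSeries.coeff_expand_of_not_dvd]
      intro hj
      exact hd (Int.natCast_dvd_natCast.mpr hj)
    · rw [h2 _ n (by omega)]

end Formal

/-- **Euler product identity**: `E(q^(ℓ²)) ∏_b E(ξ^b q) = E(q^ℓ)^(ℓ+1)`, `E = ∏ (1 - q^n)`. -/
theorem TS_etaProd {C : Type*} [Field C] (ξ : Cˣ) (ℓ : ℕ) [NeZero ℓ] (hℓ : ℓ.Prime)
    (hξ : IsPrimitiveRoot ξ ℓ) :
    TS ξ ℓ (toLC C etaProd) = qExpand C ℓ (toLC C etaProd) ^ (ℓ + 1) := by
  have hξ' : IsPrimitiveRoot (ξ : C) ℓ := IsPrimitiveRoot.coe_units_iff.mpr hξ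
  rw [TS_apply, toLC, Euler_qExpand_ofPowerSeries (ℓ * ℓ) (mul_ne_zero hℓ.ne_zero hℓ.ne_zero),
    Euler_qExpand_ofPowerSeries ℓ hℓ.ne_zero, ← map_pow, ← Euler_powerSeries (ξ : C) ℓ hℓ hξ',
    map_mul, map_prod]
  congr 1
  refine Finset.prod_congr rfl fun b _ => ?_
  rw [twist_ofPowerSeries, Units.val_pow_eq_pow_val]

end Fermat.Agent.S44.X.Eis

end
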