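/-
S44 / X / EIS (owner helper103).  Leaf `Field`: the fields `k(X₀(M)) ⊆ k(X₀(M ℓ))`
(`Fk A N` is the residue field `k(j, ū)` of `S28/Export`; degree `ℓ + 1`, separable).
-/
import Fermat.Agent.S44.X.Eis.Defs
import Fermat.Agent.S28.Export.Main
import Fermat.Agent.S28.Export.Unique
import Fermat.Agent.Lib.MulHecke.Degree

set_option autoImplicit false

noncomputable section

namespace Fermat.Agent.S44.X.Eis

open ModularCurve AlgebraicCurve Fermat.Agent.S24 Fermat.Agent.S24.B Fermat.Agent.GAL
  Fermat.Agent.Lib.EtaUnit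

/-! ### E3: the fields `k(X₀(M)) ⊆ k(X₀(M ℓ))` -/

/-- series-level form of `NodeRed` at a level prime to `p` -/
theorem exists_redS_Fk (hR : NodeRed) {p : ℕ} (hp : p.Prime) (A : ValuationSubring Qb)
    (hA : A.LiesOverPrime p) (M : ℕ) [NeZero M] (hpM : ¬ p ∣ M) (u : FN M) (hu : u ≠ 0) :
    ∃ (c : Qb) (r : Fk A M), C1.RedS A (u : LaurentSeries Qb) c (r : LaurentSeries (kA A)) := by
  have : NeZero p := ⟨hp.ne_zero⟩
  have hu' : heckeAlphaBar Kbar M p u ≠ 0 := by
    rw [Ne, map_eq_zero]
    exact hu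
  obtain ⟨ubar, hub⟩ := hR p M hp hpM A hA (heckeAlphaBar Kbar M p u) hu'
  obtain ⟨c, hc⟩ := redS_of_isRed hub
  rw [coe_heckeAlphaBar] at hc
  exact ⟨c, ubar, hc⟩

/-- `k(X₀(N))` is the residue field `k(j, ū)` of `S28/Export`. -/
theorem Field_full_eq_bigk (hR : NodeRed) {p : ℕ} [hp : Fact p.Prime] (A : ValuationSubring Qb)
    (hA : A.LiesOverPrime p) (N : ℕ) [NeZero N] (hpN : ¬ p ∣ N) (D : S28.UData N p)
    (hu : D.u ∈ modularFunctionFieldFull N) :
    modularFunctionFieldFullC (kA A) N = S28.Export.bigk A D hA := by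
  have hK : S28.Export.bigK A D hA = modularFunctionFieldFullC Qb N :=
    S28.Export.bigK_eq_full A D hA hu
  rw [← S28.Export.resField_bigK, hK]
  apply le_antisymm
  · rw [modularFunctionFieldFullC, IntermediateField.adjoin_le_iff]
    rintro x ⟨d, hne, hdvd, rfl⟩
    have := hne
    refine ⟨qExpand Qb d (jqModC Qb), jqModCd_mem_full Qb N hdvd, ?_⟩
    have := S28.Export.red_iota (O := A) (qExpand A d (jqModC A))
    rwa [coeffMap_qExpand, coeffMap_qExpand, coeffMap_jqModC, coeffMap_jqModC] at this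
  · rintro g ⟨f, hf, hr⟩
    by_cases hg : g = 0
    · rw [hg]
      exact zero_mem _
    have hS : C1.RedS A f 1 g := by
      obtain ⟨G₁, G₂, h2, hf', hg'⟩ := hr
      refine ⟨one_ne_zero, G₁, G₂, ?_, h2, ?_, hg'⟩
      · rw [← hg']
        exact mul_ne_zero hg h2
      · rw [map_one, one_mul]
        exact hf'
    have hf' : f ∈ modularFunctionFieldBar N := by
      rw [S28.Export.bar_eq_full]
      exact hf
    obtain ⟨c, r, hcr⟩ := exists_redS_Fk hR hp.out A hA N hpN ⟨f, hf'⟩ (by
      intro h0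
      exact hS.ne_zero (congrArg Subtype.val h0))
    obtain ⟨a, -, hg'⟩ := hcr.unique hS
    rw [hg']
    refine mul_mem ?_ r.2
    have e1 : (HahnSeries.C (IsLocalRing.residue A (a : A)) : LaurentSeries (kA A)) =
        algebraMap (kA A) (LaurentSeries (kA A)) (IsLocalRing.residue A (a : A)) :=
      (algebraMap_laurentSeries_eq_single (kA A) _).symm
    rw [e1]
    exact IntermediateField.algebraMap_mem _ _

theorem Field_jK_le (A : ValuationSubring Qb) (N : ℕ) :
    S28.Export.jK (kA A) ≤ modularFunctionFieldFullC (kA A) N := by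
  rw [IntermediateField.adjoin_le_iff]
  rintro x rfl
  exact jqModC_mem_full (kA A) N

/-- `[k(X₀(N)) : k(j)] = [SL₂(ℤ) : Γ₀(N)]` -/
theorem Field_relfinrank (hR : NodeRed) {p : ℕ} (hp : p.Prime) (A : ValuationSubring Qb)
    (hA : A.LiesOverPrime p) (N : ℕ) [NeZero N] (hpN : ¬ p ∣ N) :
    (S28.Export.jK (kA A)).relfinrank (modularFunctionFieldFullC (kA A) N) =
      (CongruenceSubgroup.Gamma0 N).index := by
  have : Fact p.Prime := ⟨hp⟩
  obtain ⟨D, hn, hu⟩ := S28.Export.exists_good_UData N p hpN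
  rw [Field_full_eq_bigk hR A hA N hpN D hu, S28.Export.relfinrank_bigk, hn]

/-- separability of an element of an intermediate field, in the ambient field -/
theorem Field_isSeparable_coe {k L : Type*} [Field k] [Field L] [Algebra k L]
    {E : IntermediateField k L} [hsep : Algebra.IsSeparable k E] {x : L} (hx : x ∈ E) :
    IsSeparable k x := by
  have h1 := Algebra.IsSeparable.isSeparable k (⟨x, hx⟩ : E)
  unfold IsSeparable at h1 ⊢
  rwa [IntermediateField.minpoly_eq] at h1

/-- every element of `k(X₀(N))` is separable over `k(j)` -/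
theorem Field_isSeparable_jK (hR : NodeRed) {p : ℕ} (hp : p.Prime) (A : ValuationSubring Qb)
    (hA : A.LiesOverPrime p) (N : ℕ) [NeZero N] (hpN : ¬ p ∣ N) (x : LaurentSeries (kA A))
    (hx : x ∈ modularFunctionFieldFullC (kA A) N) : IsSeparable (S28.Export.jK (kA A)) x := by
  have : Fact p.Prime := ⟨hp⟩
  obtain ⟨D, hn, hu⟩ := S28.Export.exists_good_UData N p hpN
  rw [Field_full_eq_bigk hR A hA N hpN D hu] at hx
  have hsep := S28.Export.isSeparable_bigk A D hA
  exact Field_isSeparable_coe (E := IntermediateField.extendScalars (S28.Export.jK_le_bigk A D hA))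
    hx

/-- the degree for the algebra structure given by an inclusion -/
theorem Field_finrank_inclusion {k L : Type*} [Field k] [Field L] [Algebra k L]
    {E E' : IntermediateField k L} (h : E ≤ E') :
    letI := (IntermediateField.inclusion h).toRingHom.toAlgebra
    Module.finrank E E' = E.relfinrank E' := by
  let := (IntermediateField.inclusion h).toRingHom.toAlgebra
  rw [IntermediateField.relfinrank_eq_finrank_of_le h]
  refine LinearEquiv.finrank_eq
    { toFun := fun x => ⟨x.1, x.2⟩
      invFun := fun x => ⟨x.1, x.2⟩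
      map_add' := fun _ _ => rfl
      map_smul' := fun _ _ => rfl
      left_inv := fun _ => rfl
      right_inv := fun _ => rfl }

/-- separability for the algebra structure given by an inclusion -/
theorem Field_isSeparable_inclusion {k L : Type*} [Field k] [Field L] [Algebra k L]
    {J E E' : IntermediateField k L} (hJ : J ≤ E) (h : E ≤ E')
    (hs : ∀ x ∈ E', IsSeparable J x) :
    letI := (IntermediateField.inclusion h).toRingHom.toAlgebra
    Algebra.IsSeparable E E' := by
  let := (IntermediateField.inclusion h).toRingHom.toAlgebra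
  refine ⟨fun x => ?_⟩
  have hsx : (minpoly J (x : L)).Separable := hs x.1 x.2
  set P := minpoly J (x : L) with hP
  let φ : J →+* E := (IntermediateField.inclusion hJ).toRingHom
  have hroot : Polynomial.aeval x (P.map φ) = 0 := by
    apply Subtype.val_injective
    have h1 : ((Polynomial.aeval x (P.map φ) : E') : L) = Polynomial.aeval (x : L) P := by
      rw [Polynomial.aeval_def, Polynomial.eval₂_map, Polynomial.aeval_def]
      exact Polynomial.hom_eval₂ P _ E'.val.toRingHom x
    rw [h1, hP, minpoly.aeval]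
    rfl
  exact (hsx.map (f := φ)).of_dvd (minpoly.dvd _ _ hroot)

set_option synthInstance.maxHeartbeats 400000 in
theorem finrank_Fk (hR : NodeRed) {p : ℕ} (hp : p.Prime) (A : ValuationSubring Qb)
    (hA : A.LiesOverPrime p) (M ℓ : ℕ) [NeZero M] [NeZero ℓ] (hℓ : ℓ.Prime) (hℓM : ¬ ℓ ∣ M)
    (hpM : ¬ p ∣ M * ℓ) :
    letI := algFk A M ℓ
    Module.finrank (Fk A M) (Fk A (M * ℓ)) = ℓ + 1 := by
  have hpM' : ¬ p ∣ M := fun h => hpM (h.mul_right ℓ)
  have hle : modularFunctionFieldFullC (kA A) M ≤ modularFunctionFieldFullC (kA A) (M * ℓ) :=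
    full_degeneracyC_le (kA A) (dvd_mul_right M ℓ)
  have h1 := IntermediateField.relfinrank_mul_relfinrank (Field_jK_le A M) hle
  rw [Field_relfinrank hR hp A hA M hpM', Field_relfinrank hR hp A hA (M * ℓ) hpM,
    Lib.MulHecke.index_Gamma0_mul M ℓ hℓ hℓM, mul_comm] at h1
  have h0 : (CongruenceSubgroup.Gamma0 M).index ≠ 0 := Subgroup.FiniteIndex.index_ne_zero
  have h2 := Nat.eq_of_mul_eq_mul_right (Nat.pos_of_ne_zero h0) h1
  rw [← h2]
  exact Field_finrank_inclusion hle

set_option synthInstance.maxHeartbeats 400000 in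
theorem isSeparable_Fk (hR : NodeRed) {p : ℕ} (hp : p.Prime) (A : ValuationSubring Qb)
    (hA : A.LiesOverPrime p) (M ℓ : ℕ) [NeZero M] [NeZero ℓ] (hpM : ¬ p ∣ M * ℓ) :
    letI := algFk A M ℓ
    Algebra.IsSeparable (Fk A M) (Fk A (M * ℓ)) :=
  Field_isSeparable_inclusion (Field_jK_le A M)
    (full_degeneracyC_le (kA A) (dvd_mul_right M ℓ))
    (fun x hx => Field_isSeparable_jK hR hp A hA (M * ℓ) hpM x hx)

end Fermat.Agent.S44.X.Eis

end
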