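/-
S44 / X / EIS, leaf `G4` (task 2263, helper146): identification of the chosen `q`-expansion of `G₄`.
-/
import Fermat.Agent.S44.X.Eis.Defs

set_option autoImplicit false

noncomputable section

namespace Fermat.Agent.S44.X.Eis

open ModularCurve AlgebraicCurve Fermat.Agent.S24 Fermat.Agent.S24.B Fermat.Agent.GAL
  Fermat.Agent.Lib.EtaUnit

open UpperHalfPlane in
/-- the function `τ ↦ ∏ (1 - q ^ (d n))` -/
def G4_e (d : ℕ) (τ : ℍ) : ℂ :=
  Fermat.Agent.Lib.JExpansion.eulerFun (Function.Periodic.qParam 1 ((d : ℂ) * τ))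

open UpperHalfPlane in
theorem G4_e_ne_zero {d : ℕ} (hd : 0 < d) (τ : ℍ) : G4_e d τ ≠ 0 := by
  have him : 0 < ((d : ℂ) * τ).im := by
    have : ((d : ℂ) * τ).im = (d : ℝ) * τ.im := by simp
    rw [this]
    exact mul_pos (by exact_mod_cast hd) τ.im_pos
  have h1 := ModularForm.eta_ne_zero him
  rw [eta_eq] at h1
  exact right_ne_zero_of_mul h1

open UpperHalfPlane in
theorem G4_fun_eq : G4 * (G4_e 1 ^ 4 * G4_e 4 ^ 4) = G4_e 2 ^ 10 := by
  funext τ
  have h1 := G4_e_ne_zero (d := 1) (by norm_num) τ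
  have h4 := G4_e_ne_zero (d := 4) (by norm_num) τ
  simp only [Pi.mul_apply, Pi.pow_apply]
  rw [G4, G4c, eta_eq, eta_eq, eta_eq]
  have e1 : Fermat.Agent.Lib.JExpansion.eulerFun (Function.Periodic.qParam 1 (τ : ℂ)) =
      G4_e 1 τ := by
    rw [G4_e, Nat.cast_one, one_mul]
  have e2 : Fermat.Agent.Lib.JExpansion.eulerFun (Function.Periodic.qParam 1 (2 * (τ : ℂ))) =
      G4_e 2 τ := by
    rw [G4_e]
    norm_num
  have e4 : Fermat.Agent.Lib.JExpansion.eulerFun (Function.Periodic.qParam 1 (4 * (τ : ℂ))) =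
      G4_e 4 τ := by
    rw [G4_e]
    norm_num
  rw [e1, e2, e4]
  have hq : Function.Periodic.qParam 24 (2 * (τ : ℂ)) ^ 10 =
      Function.Periodic.qParam 24 (τ : ℂ) ^ 4 * Function.Periodic.qParam 24 (4 * (τ : ℂ)) ^ 4 := by
    simp only [Function.Periodic.qParam]
    rw [← Complex.exp_nat_mul, ← Complex.exp_nat_mul, ← Complex.exp_nat_mul, ← Complex.exp_add]
    congr 1
    push_cast
    ring
  have hq1 : Function.Periodic.qParam 24 (τ : ℂ) ≠ 0 := Function.Periodic.qParam_ne_zero _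
  have hq4 : Function.Periodic.qParam 24 (4 * (τ : ℂ)) ≠ 0 := Function.Periodic.qParam_ne_zero _
  rw [mul_pow, mul_pow, mul_pow, hq]
  field_simp

theorem G4_toL_injective : Function.Injective toL := by
  intro P Q h
  have h1 : P.map (Int.castRingHom Kbar) = Q.map (Int.castRingHom Kbar) :=
    HahnSeries.ofPowerSeries_injective h
  ext n
  have h2 := congrArg (PowerSeries.coeff n) h1
  rw [PowerSeries.coeff_map, PowerSeries.coeff_map] at h2
  exact Int.cast_injective h2

/-- `G₄ = E(q²)^10 / (E(q)^4 E(q⁴)^4)` as formal power series -/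
theorem G4s_mul_eq :
    G4s * (etaProd ^ 4 * (PowerSeries.expand 4 (by norm_num) etaProd) ^ 4) =
      (PowerSeries.expand 2 (by norm_num) etaProd) ^ 10 := by
  apply G4_toL_injective
  have hE1 := hasTExp_eulerFun_dil (d := 1) one_ne_zero
  rw [PowerSeries.expand_one_apply] at hE1
  have hE2 := hasTExp_eulerFun_dil (d := 2) (by norm_num)
  have hE4 := hasTExp_eulerFun_dil (d := 4) (by norm_num)
  have hL := isW1_G4.exp.mul ((hE1.pow 4).mul (hE4.pow 4))
  have hR := hE2.pow 10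
  have hfun := G4_fun_eq
  change G4 * ((fun τ => G4_e 1 τ) ^ 4 * (fun τ => G4_e 4 τ) ^ 4) = (fun τ => G4_e 2 τ) ^ 10 at hfun
  unfold G4_e at hfun
  rw [hfun] at hL
  have := hL.unique hR
  rw [← toLHom_apply, ← toLHom_apply, map_mul, map_mul, map_pow, map_pow, map_pow]
  exact this

end Fermat.Agent.S44.X.Eis

end
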