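/-
S44 / X / EIS, leaf E1 (helper111): divisibility of the order of a norm, finite separable extensions, any characteristic.
-/
import Fermat.Agent.S37.HeckeInputs.Norm

set_option autoImplicit false

noncomputable section

namespace Fermat.Agent.S44.X.Eis

open AlgebraicCurve Fermat.Agent.S24 Fermat.Agent.S24.FF Fermat.Agent.S37.HeckeInputs
  IsDedekindDomain WithZero

/-! ### E1 (abstract): divisibility of the order of a norm, separable extensions, any characteristic -/

section NormSep

variable {K F F' : Type*} [Field K] [Field F] [Field F'] [Algebra K F]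
    [Algebra K F'] [Algebra F F'] [IsScalarTower K F F'] [Module.Finite F F']
    [Algebra.IsSeparable F F'] (v : Place K F)

omit [Algebra K F'] [IsScalarTower K F F'] in
theorem normSep_isDedekindDomain : IsDedekindDomain (Bv F' v) :=
  integralClosure.isDedekindDomain v.toValuationSubring F F'

omit [Algebra K F'] [IsScalarTower K F F'] [Algebra.IsSeparable F F'] in
theorem normSep_isFractionRing : IsFractionRing (Bv F' v) F' :=
  integralClosure.isFractionRing_of_finite_extension F F'

omit [Algebra K F'] [IsScalarTower K F F'] in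
theorem normSep_finite : Module.Finite v.toValuationSubring (Bv F' v) :=
  IsIntegralClosure.finite v.toValuationSubring F F' _

attribute [local instance] normSep_isDedekindDomain normSep_isFractionRing normSep_finite

omit [Algebra K F'] [IsScalarTower K F F'] in
theorem normSep_liesOver (P : HeightOneSpectrum (Bv F' v)) :
    P.asIdeal.LiesOver (IsLocalRing.maximalIdeal v.toValuationSubring) := by
  constructor
  have := P.isMaximal
  have h : (P.asIdeal.under v.toValuationSubring).IsMaximal :=
    Ideal.isMaximal_comap_of_isIntegral_of_isMaximal P.asIdeal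
  exact (IsLocalRing.eq_maximalIdeal h).symm

omit [Algebra K F'] [IsScalarTower K F F'] in
theorem normSep_finite_primes : Finite (HeightOneSpectrum (Bv F' v)) := by
  set I : Ideal (Bv F' v) :=
    (IsLocalRing.maximalIdeal v.toValuationSubring).map
      (algebraMap v.toValuationSubring (Bv F' v)) with hI
  have hI0 : I ≠ 0 := by
    obtain ⟨π, hπ⟩ := IsDiscreteValuationRing.exists_irreducible v.toValuationSubring
    intro h0
    have h1 : algebraMap v.toValuationSubring (Bv F' v) π ∈ I :=
      Ideal.mem_map_of_mem _ (by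
        rw [hπ.maximalIdeal_eq]
        exact Ideal.mem_span_singleton_self π)
    rw [h0, Ideal.zero_eq_bot, Ideal.mem_bot] at h1
    have h2 : algebraMap F F' (π : F) = 0 := congrArg Subtype.val h1
    have h3 : (π : F) = 0 := (map_eq_zero (algebraMap F F')).mp h2
    exact hπ.ne_zero (Subtype.ext h3)
  have hfin := Ideal.finite_factors hI0
  have huniv : {P : HeightOneSpectrum (Bv F' v) | P.asIdeal ∣ I} = Set.univ := by
    ext P
    simp only [Set.mem_ofPred_eq, Set.mem_univ, iff_true]
    rw [Ideal.dvd_iff_le, hI, Ideal.map_le_iff_le_comap]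
    exact le_of_eq ((normSep_liesOver v P).over)
  rw [huniv] at hfin
  exact Set.finite_univ_iff.mp hfin

omit [Algebra K F'] [IsScalarTower K F F'] in
theorem normSep_exists_relNorm (P : HeightOneSpectrum (Bv F' v)) :
    ∃ s : ℕ, Ideal.relNorm v.toValuationSubring P.asIdeal
      = IsLocalRing.maximalIdeal v.toValuationSubring ^ s := by
  have := normSep_liesOver v P
  exact Ideal.exists_relNorm_eq_pow_of_isPrime P.asIdeal
    (IsLocalRing.maximalIdeal v.toValuationSubring)

theorem normSep_ord_algebraMap (P : HeightOneSpectrum (Bv F' v)) (b : Bv F' v) (hb : b ≠ 0) :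
    (Place.ofHeightOneSpectrum (K := K) P).ord (algebraMap (Bv F' v) F' b)
      = ((Associates.mk P.asIdeal).count (Associates.mk (Ideal.span {b})).factors : ℤ) := by
  rw [ord_ofHeightOneSpectrum, HeightOneSpectrum.valuation_of_algebraMap,
    HeightOneSpectrum.intValuation_if_neg _ hb, log_exp, neg_neg]

/-- the norm formula with unspecified residue degrees. -/
theorem normSep_exists_ord_norm :
    ∃ (_ : Fintype (HeightOneSpectrum (Bv F' v))) (f : HeightOneSpectrum (Bv F' v) → ℕ),
      ∀ b : Bv F' v, b ≠ 0 → v.ord (Algebra.norm F (algebraMap (Bv F' v) F' b))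
        = ∑ P, (f P : ℤ) * (Place.ofHeightOneSpectrum (K := K) P).ord (algebraMap (Bv F' v) F' b) := by
  classical
  have := normSep_finite_primes (F' := F') v
  let inst : Fintype (HeightOneSpectrum (Bv F' v)) := Fintype.ofFinite _
  choose f hf using normSep_exists_relNorm (F' := F') v
  refine ⟨inst, f, fun b hb => ?_⟩
  have hI : Ideal.span {b} ≠ 0 := by
    rw [Ne, Ideal.zero_eq_bot, Ideal.span_singleton_eq_bot]
    exact hb
  have h1 : Ideal.span {Algebra.intNorm v.toValuationSubring (Bv F' v) b}
      = (IsLocalRing.maximalIdeal v.toValuationSubring) ^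
        (∑ P : HeightOneSpectrum (Bv F' v),
          f P * (Associates.mk P.asIdeal).count (Associates.mk (Ideal.span {b})).factors) := by
    rw [← Ideal.relNorm_singleton]
    conv_lhs => rw [← Ideal.finprod_heightOneSpectrum_factorization hI]
    rw [finprod_eq_prod_of_fintype, map_prod, ← Finset.prod_pow_eq_pow_sum]
    refine Finset.prod_congr rfl fun P _ => ?_
    rw [HeightOneSpectrum.maxPowDividing, map_pow, hf P, pow_mul]
  have h2 := ord_eq_of_span_eq_pow v _ _ h1
  have h3 : ((Algebra.intNorm v.toValuationSubring (Bv F' v) b : v.toValuationSubring) : F)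
      = Algebra.norm F (algebraMap (Bv F' v) F' b) :=
    Algebra.algebraMap_intNorm (A := v.toValuationSubring) (K := F) (L := F') (B := Bv F' v) b
  rw [← h3, h2]
  push_cast
  refine Finset.sum_congr rfl fun P _ => ?_
  rw [normSep_ord_algebraMap v P b hb]

end NormSep

theorem dvd_ord_norm_sep {K F F' : Type*} [Field K] [Field F] [Field F'] [Algebra K F]
    [Algebra K F'] [Algebra F F'] [IsScalarTower K F F'] [Module.Finite F F']
    [Algebra.IsSeparable F F'] (v : Place K F) (n : ℤ) (y : F')
    (hy : ∀ w : Place K F', w.restrict F = v → n ∣ w.ord y) :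
    n ∣ v.ord (Algebra.norm F y) := by
  have := normSep_isDedekindDomain (F' := F') v
  have := normSep_isFractionRing (F' := F') v
  by_cases hy0 : y = 0
  · subst hy0
    obtain ⟨_, f, hf⟩ := normSep_exists_ord_norm (F' := F') v
    rw [Algebra.norm_zero]
    simp [Place.ord]
  obtain ⟨_, f, hf⟩ := normSep_exists_ord_norm (F' := F') v
  obtain ⟨a, s, hs, rfl⟩ := IsFractionRing.div_surjective (A := Bv F' v) y
  have hs0 : s ≠ 0 := nonZeroDivisors.ne_zero hs
  have ha0 : a ≠ 0 := by
    rintro rfl
    simp at hy0
  have ha' : algebraMap (Bv F' v) F' a ≠ 0 := by simpa using ha0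
  have hs' : algebraMap (Bv F' v) F' s ≠ 0 := by simpa using hs0
  rw [div_eq_mul_inv, map_mul, Algebra.norm_inv,
    v.ord_mul (Algebra.norm_ne_zero_iff.mpr ha') (inv_ne_zero (Algebra.norm_ne_zero_iff.mpr hs')),
    v.ord_inv, hf a ha0, hf s hs0, ← sub_eq_add_neg, ← Finset.sum_sub_distrib]
  refine Finset.dvd_sum fun P _ => ?_
  have hP : (Place.ofHeightOneSpectrum (K := K) P).restrict F = v :=
    restrict_eq_of_mem v (fun b => algebraMap_mem_ofHeightOneSpectrum P b)
  have h1 := hy _ hP
  rw [div_eq_mul_inv, Place.ord_mul _ ha' (inv_ne_zero hs'), Place.ord_inv, ← sub_eq_add_neg] at h1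
  rw [← mul_sub]
  exact Dvd.dvd.mul_left h1 _

end Fermat.Agent.S44.X.Eis

end
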