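/-
S44 / X / EIS (owner helper103).  Leaf `Preserve`: the multiplicative Hecke operator
`Norm_α ∘ β` preserves the condition `n ∣ ord` off the cusps.
-/
import Fermat.Agent.S44.X.Eis.Defs
import Fermat.Agent.S44.X.Eis.NormSep
import Fermat.Agent.S44.X.Eis.Field
import Fermat.Agent.S44.X.Eis.JInt
import Fermat.Agent.S24.FFSum

set_option autoImplicit false
set_option linter.style.haveILetI false

noncomputable section

namespace Fermat.Agent.S44.X.Eis

open ModularCurve AlgebraicCurve Fermat.Agent.S24 Fermat.Agent.S24.B Fermat.Agent.GAL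
  Fermat.Agent.Lib.EtaUnit

/-- an element which is integral over `K[t]` is regular at the places where `t` is regular. -/
theorem Preserve.ord_nonneg_of_monic {K F : Type*} [Field K] [Field F] [Algebra K F]
    (w : Place K F) {t b : F} (ht : 0 ≤ w.ord t) (Φ : Polynomial (Polynomial K)) (hΦ : Φ.Monic)
    (h : Polynomial.eval₂ (Polynomial.aeval (R := K) t).toRingHom b Φ = 0) : 0 ≤ w.ord b := by
  rw [← FF.mem_iff_ord_nonneg]
  have hmem : ∀ P : Polynomial K,
      (Polynomial.aeval (R := K) t).toRingHom P ∈ w.toValuationSubring.toSubring := fun P =>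
    FF.adjoin_le_of_ord_nonneg w ht _ (Polynomial.aeval_mem_adjoin_singleton K t)
  let φ : Polynomial K →+* w.toValuationSubring :=
    (Polynomial.aeval (R := K) t).toRingHom.codRestrict w.toValuationSubring.toSubring hmem
  have hint : IsIntegral w.toValuationSubring b := by
    refine ⟨Φ.map φ, hΦ.map φ, ?_⟩
    rw [Polynomial.eval₂_map]
    exact h
  obtain ⟨y, hy⟩ := IsIntegrallyClosed.isIntegral_iff.mp hint
  exact hy ▸ y.2

theorem OffCusp.heckeFk (hR : NodeRed) {p : ℕ} (hp : p.Prime) (A : ValuationSubring Qb)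
    (hA : A.LiesOverPrime p) (M ℓ : ℕ) [NeZero M] [NeZero ℓ] (hℓ : ℓ.Prime) (hℓM : ¬ ℓ ∣ M)
    (hpM : ¬ p ∣ M * ℓ) {n : ℤ} {f : Fk A M} (hf : OffCusp A M n f) :
    OffCusp A M n (heckeFk A M ℓ f) := by
  letI := algFk A M ℓ
  letI : Module (Fk A M) (Fk A (M * ℓ)) := (algFk A M ℓ).toModule
  haveI : IsScalarTower (kA A) (Fk A M) (Fk A (M * ℓ)) :=
    IsScalarTower.of_algebraMap_eq fun x => ((inclFk A M ℓ).commutes x).symm
  haveI : Module.Finite (Fk A M) (Fk A (M * ℓ)) :=
    Module.finite_of_finrank_pos (by rw [finrank_Fk hR hp A hA M ℓ hℓ hℓM hpM]; omega)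
  haveI : Algebra.IsSeparable (Fk A M) (Fk A (M * ℓ)) := isSeparable_Fk hR hp A hA M ℓ hpM
  intro v hv
  show n ∣ v.ord (Algebra.norm (Fk A M) (betaFk A M ℓ f))
  refine dvd_ord_norm_sep v n _ fun w hw => ?_
  -- (1) `j` is regular at `w`
  have h1 : 0 ≤ w.ord (jk A (M * ℓ)) := by
    have e : algebraMap (Fk A M) (Fk A (M * ℓ)) (jk A M) = jk A (M * ℓ) := Subtype.ext rfl
    rw [← e, w.ord_restrict, hw]
    positivity
  -- (2) `j(q^ℓ)` is regular at `w`
  have h2 : 0 ≤ w.ord (betaFk A M ℓ (jk A M)) := by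
    obtain ⟨Φ, hΦ, hΦ0⟩ := exists_monic_jk A M ℓ
    exact Preserve.ord_nonneg_of_monic w h1 Φ hΦ hΦ0
  -- (3) restriction along `β`
  have h3 := Place.ord_restrictAlong (betaFk A M ℓ) (betaFk_isIntegral A M ℓ) w
  rw [h3 f]
  rw [h3 (jk A M)] at h2
  rcases Nat.eq_zero_or_pos (Place.ramificationIndexAlong (betaFk A M ℓ) w) with h0 | h0
  · rw [h0]
    simp
  · refine Dvd.dvd.mul_left (hf _ ?_) _
    by_contra hneg
    rw [not_le] at hneg
    have h4 : (0 : ℤ) < (Place.ramificationIndexAlong (betaFk A M ℓ) w : ℤ) := by exact_mod_cast h0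
    nlinarith

end Fermat.Agent.S44.X.Eis

end
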