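/-
S44 / X / EIS (owner helper103), leaf NormRed (helper72).  Mathlib only.
-/
import Mathlib

set_option autoImplicit false

noncomputable section

namespace Fermat.Agent.S44.X.Eis

/-- In a valuation ring, a finite family which is not identically zero has an entry dividing all
the others. -/
theorem NormRed.exists_max_val {E : Type*} [Field E] (A : ValuationSubring E) {ι : Type*}
    [Fintype ι] (a : ι → E) (h : ∃ i, a i ≠ 0) : ∃ i₀, a i₀ ≠ 0 ∧ ∀ i, a i / a i₀ ∈ A := by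
  obtain ⟨i₁, h1⟩ := h
  obtain ⟨i₀, -, hmax⟩ := Finset.exists_max_image Finset.univ (fun i => A.valuation (a i))
    ⟨i₁, Finset.mem_univ _⟩
  have h0 : a i₀ ≠ 0 := by
    intro h0
    have := hmax i₁ (Finset.mem_univ _)
    simp only [h0, map_zero] at this
    exact h1 ((map_eq_zero _).1 (le_antisymm this zero_le))
  refine ⟨i₀, h0, fun i => ?_⟩
  rw [← A.valuation_le_one_iff, map_div₀]
  exact div_le_one_of_le₀ (hmax i (Finset.mem_univ _)) zero_le

/-! ### E2 (abstract): the norm commutes with reduction when `f = n` -/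

theorem norm_reduction {F₀ F₁ κ₀ κ₁ : Type*} [Field F₀] [Field F₁] [Field κ₀] [Field κ₁]
    [Algebra F₀ F₁] [Algebra κ₀ κ₁] [FiniteDimensional F₀ F₁]
    (V₀ : ValuationSubring F₀) (V₁ : Subring F₁) (r₀ : V₀ →+* κ₀) (r₁ : V₁ →+* κ₁)
    (h01 : ∀ x : V₀, algebraMap F₀ F₁ (x : F₀) ∈ V₁)
    (hcomp : ∀ x : V₀, r₁ ⟨algebraMap F₀ F₁ (x : F₀), h01 x⟩ = algebraMap κ₀ κ₁ (r₀ x))
    (hker : ∀ x : V₀, ¬ IsUnit x → r₀ x = 0)
    (hsurj : Function.Surjective r₁)
    (hdeg : Module.finrank κ₀ κ₁ = Module.finrank F₀ F₁) (y : V₁) :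
    ∃ z : V₀, (z : F₀) = Algebra.norm F₀ (y : F₁) ∧ r₀ z = Algebra.norm κ₀ (r₁ y) := by
  classical
  have hnpos : 0 < Module.finrank F₀ F₁ := Module.finrank_pos
  have hfin : Module.Finite κ₀ κ₁ := Module.finite_of_finrank_pos (by rw [hdeg]; exact hnpos)
  let bb : Module.Basis (Fin (Module.finrank F₀ F₁)) κ₀ κ₁ := Module.finBasisOfFinrankEq κ₀ κ₁ hdeg
  choose e he using fun i => hsurj (bb i)
  let ι : V₀ → V₁ := fun x => ⟨algebraMap F₀ F₁ (x : F₀), h01 x⟩
  have hL : ∀ c : Fin (Module.finrank F₀ F₁) → V₀,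
      r₁ (∑ i, ι (c i) * e i) = ∑ i, r₀ (c i) • bb i := by
    intro c
    rw [map_sum]
    refine Finset.sum_congr rfl fun i _ => ?_
    rw [map_mul, hcomp, he, Algebra.smul_def]
  have hcoe : ∀ c : Fin (Module.finrank F₀ F₁) → V₀,
      ((∑ i, ι (c i) * e i : V₁) : F₁) = ∑ i, (c i : F₀) • (e i : F₁) := by
    intro c
    rw [← Subring.subtype_apply, map_sum]
    refine Finset.sum_congr rfl fun i _ => ?_
    rw [Algebra.smul_def]
    rfl
  -- a combination with one coefficient equal to one does not reduce to zero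
  have hkey : ∀ (c : Fin (Module.finrank F₀ F₁) → V₀) (i₀ : Fin (Module.finrank F₀ F₁)),
      c i₀ = 1 → r₁ (∑ i, ι (c i) * e i) ≠ 0 := by
    intro c i₀ h1 h0
    rw [hL] at h0
    have h2 := Fintype.linearIndependent_iff.1 bb.linearIndependent _ h0 i₀
    rw [h1, map_one] at h2
    exact one_ne_zero h2
  -- (i) the lifts are linearly independent
  have hli : LinearIndependent F₀ (fun i => (e i : F₁)) := by
    rw [Fintype.linearIndependent_iff]
    intro g hg
    by_contra hne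
    push Not at hne
    obtain ⟨i₀, h0, hall⟩ := NormRed.exists_max_val V₀ g hne
    refine hkey (fun i => ⟨g i / g i₀, hall i⟩) i₀ (Subtype.ext (div_self h0)) ?_
    have h1 : (∑ i, ι ⟨g i / g i₀, hall i⟩ * e i : V₁) = 0 := by
      apply Subtype.ext
      rw [hcoe]
      show ∑ i, (g i / g i₀) • (e i : F₁) = 0
      have h2 : ∑ i, (g i / g i₀) • (e i : F₁) = (g i₀)⁻¹ • ∑ i, g i • (e i : F₁) := by
        rw [Finset.smul_sum]
        refine Finset.sum_congr rfl fun i _ => ?_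
        rw [smul_smul, div_eq_inv_mul]
      rw [h2, hg, smul_zero]
    rw [h1, map_zero]
  have hnonempty : Nonempty (Fin (Module.finrank F₀ F₁)) := ⟨⟨0, hnpos⟩⟩
  let eB : Module.Basis (Fin (Module.finrank F₀ F₁)) F₀ F₁ :=
    basisOfLinearIndependentOfCardEqFinrank hli (by simp)
  have heB : ∀ i, eB i = (e i : F₁) := fun i => by
    simp only [eB, coe_basisOfLinearIndependentOfCardEqFinrank]
  have hrepr : ∀ z : F₁, z = ∑ i, eB.repr z i • (e i : F₁) := by
    intro z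
    conv_lhs => rw [← eB.sum_repr z]
    simp only [heB]
  -- (ii) the coordinates of an element of `V₁` are integral
  have hint : ∀ (z : V₁) (i : Fin (Module.finrank F₀ F₁)), eB.repr (z : F₁) i ∈ V₀ := by
    intro z
    by_contra hne
    push Not at hne
    obtain ⟨i₁, hi₁⟩ := hne
    obtain ⟨i₀, h0, hall⟩ := NormRed.exists_max_val V₀ (fun i => eB.repr (z : F₁) i)
      ⟨i₁, fun h => hi₁ (by rw [h]; exact V₀.zero_mem)⟩
    have hi₀ : eB.repr (z : F₁) i₀ ∉ V₀ := by
      intro h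
      apply hi₁
      have h1 : eB.repr (z : F₁) i₁ = eB.repr (z : F₁) i₁ / eB.repr (z : F₁) i₀ *
          eB.repr (z : F₁) i₀ := (div_mul_cancel₀ _ h0).symm
      rw [h1]
      exact V₀.mul_mem _ _ (hall i₁) h
    have hc : (eB.repr (z : F₁) i₀)⁻¹ ∈ V₀ := (V₀.mem_or_inv_mem _).resolve_left hi₀
    have hcu : ¬ IsUnit (⟨(eB.repr (z : F₁) i₀)⁻¹, hc⟩ : V₀) := by
      intro hu
      obtain ⟨w, hw⟩ := hu.exists_right_inv
      apply hi₀
      have h1 : (eB.repr (z : F₁) i₀)⁻¹ * (w : F₀) = 1 := congrArg Subtype.val hw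
      have h2 : (w : F₀) = eB.repr (z : F₁) i₀ := by
        rw [eq_inv_of_mul_eq_one_right h1, inv_inv]
      rw [← h2]
      exact w.2
    refine hkey (fun i => ⟨eB.repr (z : F₁) i / eB.repr (z : F₁) i₀, hall i⟩) i₀
      (Subtype.ext (div_self h0)) ?_
    have h1 : (∑ i, ι ⟨eB.repr (z : F₁) i / eB.repr (z : F₁) i₀, hall i⟩ * e i : V₁) =
        ι ⟨(eB.repr (z : F₁) i₀)⁻¹, hc⟩ * z := by
      apply Subtype.ext
      rw [hcoe]
      show ∑ i, (eB.repr (z : F₁) i / eB.repr (z : F₁) i₀) • (e i : F₁) =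
        algebraMap F₀ F₁ (eB.repr (z : F₁) i₀)⁻¹ * (z : F₁)
      have h2 : (eB.repr (z : F₁) i₀)⁻¹ • (z : F₁) =
          (eB.repr (z : F₁) i₀)⁻¹ • ∑ i, eB.repr (z : F₁) i • (e i : F₁) :=
        congrArg _ (hrepr (z : F₁))
      rw [← Algebra.smul_def, h2, Finset.smul_sum]
      refine Finset.sum_congr rfl fun i _ => ?_
      rw [smul_smul, div_eq_inv_mul]
    rw [h1, map_mul, hcomp, hker _ hcu, map_zero, zero_mul]
  have hred : ∀ z : V₁, r₁ z = ∑ i, r₀ ⟨eB.repr (z : F₁) i, hint z i⟩ • bb i := by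
    intro z
    rw [← hL]
    congr 1
    apply Subtype.ext
    rw [hcoe]
    exact hrepr (z : F₁)
  -- (iii) the matrix of multiplication by `y`
  let M : Matrix (Fin (Module.finrank F₀ F₁)) (Fin (Module.finrank F₀ F₁)) V₀ :=
    fun i j => ⟨eB.repr ((y * e j : V₁) : F₁) i, hint (y * e j) i⟩
  refine ⟨M.det, ?_, ?_⟩
  · rw [Algebra.norm_eq_matrix_det eB]
    have h1 : Algebra.leftMulMatrix eB (y : F₁) = V₀.subtype.mapMatrix M := by
      ext i j
      rw [Algebra.leftMulMatrix_eq_repr_mul, heB]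
      rfl
    rw [h1, ← RingHom.map_det]
    rfl
  · rw [Algebra.norm_eq_matrix_det bb]
    have h1 : Algebra.leftMulMatrix bb (r₁ y) = r₀.mapMatrix M := by
      ext i j
      rw [Algebra.leftMulMatrix_eq_repr_mul, ← he j, ← map_mul, hred (y * e j), bb.repr_sum_self]
      rfl
    rw [h1, ← RingHom.map_det]

end Fermat.Agent.S44.X.Eis

end
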