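/-
S44 / X / EIS (owner helper103).  Leaf E4: the `q`-expansion of the multiplicative Hecke operator
`Norm_α ∘ β` on `k(X₀(M))` in characteristic `p ∤ M ℓ`: the norm commutes with the Gauss reduction.
-/
import Fermat.Agent.S44.X.Eis.NormRed
import Fermat.Agent.S44.X.Eis.Field
import Fermat.Agent.S28.Export.Main
import Fermat.Agent.S18.Glue.Lift
import Fermat.Agent.GAL.E.QExp

set_option autoImplicit false

noncomputable section

namespace Fermat.Agent.S44.X.Eis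

open ModularCurve AlgebraicCurve Fermat.Agent.S24 Fermat.Agent.S24.B Fermat.Agent.GAL
  Fermat.Agent.Lib.EtaUnit

open Fermat.Agent.S28.Export (Red IsGood gaussRing redHom red_redHom redHom_eq)

namespace QExpNorm

section Generic

variable {K : Type*} [Field K] (O : ValuationSubring K)

/-- The norm commutes with the Gauss reduction (subfields of `K((q))`, residue degree = degree). -/
theorem red_norm {E₀ E₁ : IntermediateField K (LaurentSeries K)} [Algebra E₀ E₁]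
    [Module.Finite E₀ E₁]
    (hcoe : ∀ x : E₀, ((algebraMap E₀ E₁ x : E₁) : LaurentSeries K) = x)
    {κ₀ κ₁ : Type*} [Field κ₀] [Field κ₁] [Algebra κ₀ κ₁]
    (ι₀ : κ₀ →+* LaurentSeries (IsLocalRing.ResidueField O))
    (ι₁ : κ₁ →+* LaurentSeries (IsLocalRing.ResidueField O))
    (hι : ∀ x : κ₀, ι₁ (algebraMap κ₀ κ₁ x) = ι₀ x)
    (g₀ : IsGood O E₀) (g₁ : IsGood O E₁)
    (h₀ : ∀ (f : E₀) (g), Red O (f : LaurentSeries K) g → ∃ x, ι₀ x = g)
    (h₁ : ∀ (f : E₁) (g), Red O (f : LaurentSeries K) g → ∃ x, ι₁ x = g)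
    (s₁ : ∀ x : κ₁, ∃ f : E₁, Red O (f : LaurentSeries K) (ι₁ x))
    (hdeg : Module.finrank κ₀ κ₁ = Module.finrank E₀ E₁)
    (y : E₁) (yb : κ₁) (hy : Red O (y : LaurentSeries K) (ι₁ yb)) :
    Red O ((Algebra.norm E₀ y : E₀) : LaurentSeries K) (ι₀ (Algebra.norm κ₀ yb)) := by
  let e₀ : κ₀ ≃+* ι₀.range := RingEquiv.ofBijective ι₀.rangeRestrict
    ⟨fun a b h => ι₀.injective (congrArg Subtype.val h), ι₀.rangeRestrict_surjective⟩
  let e₁ : κ₁ ≃+* ι₁.range := RingEquiv.ofBijective ι₁.rangeRestrict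
    ⟨fun a b h => ι₁.injective (congrArg Subtype.val h), ι₁.rangeRestrict_surjective⟩
  let r₀ : gaussRing O E₀ g₀ →+* κ₀ :=
    (e₀.symm : ι₀.range →+* κ₀).comp ((redHom g₀).codRestrict ι₀.range
      (fun x => h₀ (x : E₀) _ (red_redHom g₀ x)))
  let r₁ : (gaussRing O E₁ g₁).toSubring →+* κ₁ :=
    (e₁.symm : ι₁.range →+* κ₁).comp ((redHom g₁).codRestrict ι₁.range
      (fun x => h₁ (x : E₁) _ (red_redHom g₁ x)))
  have hι₀ : ∀ x : gaussRing O E₀ g₀, ι₀ (r₀ x) = redHom g₀ x := by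
    intro x
    have : e₀ (r₀ x) = (redHom g₀).codRestrict ι₀.range
      (fun x => h₀ (x : E₀) _ (red_redHom g₀ x)) x := e₀.apply_symm_apply _
    exact congrArg Subtype.val this
  have hι₁ : ∀ x : (gaussRing O E₁ g₁).toSubring, ι₁ (r₁ x) = redHom g₁ x := by
    intro x
    have : e₁ (r₁ x) = (redHom g₁).codRestrict ι₁.range
      (fun x => h₁ (x : E₁) _ (red_redHom g₁ x)) x := e₁.apply_symm_apply _
    exact congrArg Subtype.val this
  have hr₀ : ∀ (x : gaussRing O E₀ g₀), Red O (((x : E₀)) : LaurentSeries K) (ι₀ (r₀ x)) := by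
    intro x; rw [hι₀]; exact red_redHom g₀ x
  have hr₁ : ∀ (x : (gaussRing O E₁ g₁).toSubring),
      Red O (((x : E₁)) : LaurentSeries K) (ι₁ (r₁ x)) := by
    intro x; rw [hι₁]; exact red_redHom g₁ x
  have h01 : ∀ x : gaussRing O E₀ g₀,
      algebraMap E₀ E₁ (x : E₀) ∈ (gaussRing O E₁ g₁).toSubring := by
    intro x
    refine ⟨ι₀ (r₀ x), ?_⟩
    rw [hcoe]; exact hr₀ x
  have hcomp : ∀ x : gaussRing O E₀ g₀,
      r₁ ⟨algebraMap E₀ E₁ (x : E₀), h01 x⟩ = algebraMap κ₀ κ₁ (r₀ x) := by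
    intro x
    apply ι₁.injective
    rw [hι]
    have h := hr₁ ⟨algebraMap E₀ E₁ (x : E₀), h01 x⟩
    rw [hcoe] at h
    exact h.unique (hr₀ x)
  have hker : ∀ x : gaussRing O E₀ g₀, ¬ IsUnit x → r₀ x = 0 := by
    intro x hx
    apply ι₀.injective
    rw [hι₀, map_zero]
    by_contra hne
    exact hx ((Fermat.Agent.S28.Export.isUnit_iff_redHom_ne_zero g₀ x).2 hne)
  have hsurj : Function.Surjective r₁ := by
    intro g
    obtain ⟨u, hug⟩ := s₁ g
    refine ⟨⟨u, ⟨_, hug⟩⟩, ι₁.injective ?_⟩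
    exact (hr₁ ⟨u, ⟨_, hug⟩⟩).unique hug
  obtain ⟨z, hz1, hz2⟩ := norm_reduction (gaussRing O E₀ g₀)
    (gaussRing O E₁ g₁).toSubring r₀ r₁ h01 hcomp hker hsurj hdeg ⟨y, ⟨_, hy⟩⟩
  have hyb : r₁ ⟨y, ⟨_, hy⟩⟩ = yb := ι₁.injective ((hr₁ ⟨y, ⟨_, hy⟩⟩).unique hy)
  rw [hyb] at hz2
  have := hr₀ z
  rw [hz1, hz2] at this
  exact this

end Generic

variable {A : ValuationSubring Qb}

/-- `Red` (S28) from `RedS` (C1) with constant `1`. -/
theorem red_of_redS {f : LaurentSeries Qb} {g : LaurentSeries (kA A)} (h : C1.RedS A f 1 g) :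
    Red A f g := by
  obtain ⟨-, P, Q, -, hQ, h1, h2⟩ := h
  exact ⟨P, Q, hQ, by rw [h1, map_one, one_mul], h2⟩

/-- `RedS` (C1) with constant `1` from `Red` (S28). -/
theorem redS_of_red {f : LaurentSeries Qb} {g : LaurentSeries (kA A)} (h : Red A f g)
    (hg : g ≠ 0) : C1.RedS A f 1 g := by
  obtain ⟨G₁, G₂, h0, h1, h2⟩ := h
  refine ⟨one_ne_zero, G₁, G₂, ?_, h0, by rw [h1, map_one, one_mul], h2⟩
  rw [← h2]
  exact mul_ne_zero hg h0

theorem red_qExpand {f : LaurentSeries Qb} {g : LaurentSeries (kA A)} (h : Red A f g) (m : ℕ)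
    [NeZero m] : Red A (qExpand Qb m f) (qExpand (kA A) m g) := by
  obtain ⟨G₁, G₂, h0, h1, h2⟩ := h
  refine ⟨qExpand A m G₁, qExpand A m G₂, ?_, ?_, ?_⟩
  · rw [E.HeckeBasic.coeffMap_qExpand]
    exact fun h => h0 (qExpand_injective m (by rw [h, map_zero]))
  · rw [E.HeckeBasic.coeffMap_qExpand, E.HeckeBasic.coeffMap_qExpand, ← map_mul, h1]
  · rw [E.HeckeBasic.coeffMap_qExpand, E.HeckeBasic.coeffMap_qExpand, ← map_mul, h2]

/-- the function field of level `N` is Gauss-good -/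
theorem isGood_bar {p : ℕ} (hp : p.Prime) (hA : A.LiesOverPrime p) (N : ℕ) :
    IsGood A (modularFunctionFieldBar N) := by
  intro f hf hf0
  obtain ⟨c, r, h⟩ := C1.exists_redS hp hA (⟨f, hf⟩ : FN N) (fun h0 => hf0 (congrArg Subtype.val h0))
  have hr := h.red_ne_zero
  obtain ⟨hc, P, Q, hP, hQ, h1, h2⟩ := h
  refine ⟨c⁻¹, inv_ne_zero hc, r, hr, P, Q, hQ, ?_, h2⟩
  have h1' : f * E.incl A Q = HahnSeries.C c * E.incl A P := h1
  rw [Fermat.Agent.S28.Export.smul_eq_C_mul, mul_assoc, h1', ← mul_assoc, ← map_mul,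
    inv_mul_cancel₀ hc, map_one, one_mul]

/-- the reduction of an element of level `N` prime to `p` lies in `k(X₀(N))` -/
theorem mem_Fk_of_red (hR : NodeRed) {p : ℕ} (hp : p.Prime) (hA : A.LiesOverPrime p) (N : ℕ)
    [NeZero N] (hpN : ¬ p ∣ N) (u : FN N) {g : LaurentSeries (kA A)}
    (h : Red A (u : LaurentSeries Qb) g) : g ∈ modularFunctionFieldFullC (kA A) N := by
  by_cases hg : g = 0
  · rw [hg]; exact zero_mem _
  have h1 := redS_of_red h hg
  have hu : u ≠ 0 := by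
    rintro rfl
    exact h1.ne_zero rfl
  obtain ⟨c, r, h2⟩ := exists_redS_Fk hR hp A hA N hpN u hu
  obtain ⟨a, -, ha⟩ := h2.unique h1
  rw [ha]
  refine mul_mem ?_ r.2
  have : (HahnSeries.C (IsLocalRing.residue A (a : A)) : LaurentSeries (kA A)) =
      algebraMap (kA A) (LaurentSeries (kA A)) (IsLocalRing.residue A (a : A)) := by
    rw [algebraMap_laurentSeries_eq_single]; rfl
  rw [this]
  exact IntermediateField.algebraMap_mem _ _

/-- every element of `k(X₀(N))` is the reduction of an element of level `N` -/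
theorem exists_red_of_mem (N : ℕ) {g : LaurentSeries (kA A)}
    (hg : g ∈ modularFunctionFieldFullC (kA A) N) :
    ∃ u : FN N, Red A (u : LaurentSeries Qb) g := by
  obtain ⟨P, hP, Q, hQ, hQ0, h⟩ := Fermat.Agent.S18.Glue.exists_lift (A := A) (N := N) hg
  have hP' := (Fermat.Agent.S18.Glue.mem_intElt.1 hP).1
  have hQ' := (Fermat.Agent.S18.Glue.mem_intElt.1 hQ).1
  have hQne : E.incl A Q ≠ 0 := by
    intro h0
    apply hQ0
    have : Q = 0 := Fermat.Agent.S18.Glue.inc_injective (by rw [h0, map_zero])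
    rw [this, map_zero]
  refine ⟨(⟨E.incl A P, hP'⟩ : FN N) / ⟨E.incl A Q, hQ'⟩, P, Q, hQ0, ?_, h⟩
  show E.incl A P / E.incl A Q * E.incl A Q = E.incl A P
  exact div_mul_cancel₀ _ hQne


/-- the inclusion `k(X₀(M)) → k((q))` as a ring homomorphism -/
def valFk (A : ValuationSubring Qb) (M : ℕ) : Fk A M →+* LaurentSeries (kA A) where
  toFun x := x
  map_one' := rfl
  map_mul' _ _ := rfl
  map_zero' := rfl
  map_add' _ _ := rfl

theorem valFk_apply (A : ValuationSubring Qb) (M : ℕ) (x : Fk A M) :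
    valFk A M x = (x : LaurentSeries (kA A)) := rfl

set_option synthInstance.maxHeartbeats 400000 in
/-- the norm along `α` commutes with the Gauss reduction -/
theorem red_normAlpha (hR : NodeRed) {p : ℕ} (hp : p.Prime)
    (hA : A.LiesOverPrime p) (M ℓ : ℕ) [NeZero M] [NeZero ℓ] (hℓ : ℓ.Prime) (hℓM : ¬ ℓ ∣ M)
    (hpM : ¬ p ∣ M * ℓ) (y : FN (M * ℓ)) (yb : Fk A (M * ℓ))
    (hy : Red A (y : LaurentSeries Qb) (yb : LaurentSeries (kA A))) :
    Red A ((E.normAlpha M ℓ y : FN M) : LaurentSeries Qb)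
      ((normFk A M ℓ yb : Fk A M) : LaurentSeries (kA A)) := by
  have hpM0 : ¬ p ∣ M := fun h => hpM (h.mul_right _)
  letI i1 := E.algAlpha M ℓ
  letI i2 := algFk A M ℓ
  haveI i3 : Module.Finite (FN M) (FN (M * ℓ)) := E.finite_algAlpha M ℓ
  exact red_norm A (E₀ := modularFunctionFieldBar M) (E₁ := modularFunctionFieldBar (M * ℓ))
    (fun x => coe_heckeAlphaBar M ℓ x) (valFk A M) (valFk A (M * ℓ))
    (fun x => coe_inclFk A M ℓ x) (isGood_bar hp hA M) (isGood_bar hp hA (M * ℓ))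
    (fun f g h => ⟨⟨g, mem_Fk_of_red hR hp hA M hpM0 f h⟩, rfl⟩)
    (fun f g h => ⟨⟨g, mem_Fk_of_red hR hp hA (M * ℓ) hpM f h⟩, rfl⟩)
    (fun x => exists_red_of_mem (M * ℓ) x.2)
    ((finrank_Fk hR hp A hA M ℓ hℓ hℓM hpM).trans (E.finrank_algAlpha M ℓ hℓ hℓM).symm)
    y yb hy

end QExpNorm

open QExpNorm

set_option synthInstance.maxHeartbeats 400000 in
theorem qExpand_heckeFk (hR : NodeRed) {p : ℕ} (hp : p.Prime) (A : ValuationSubring Qb)
    (hA : A.LiesOverPrime p) (M ℓ : ℕ) [NeZero M] [NeZero ℓ] (hℓ : ℓ.Prime) (hℓM : ¬ ℓ ∣ M)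
    (hpM : ¬ p ∣ M * ℓ) (f : Fk A M) :
    qExpand (kA A) ℓ ((heckeFk A M ℓ f : Fk A M) : LaurentSeries (kA A)) =
      TS (xi A ℓ) ℓ (f : LaurentSeries (kA A)) := by
  -- lift `f`
  obtain ⟨u, hu, hu0⟩ : ∃ u : FN M, Red A (u : LaurentSeries Qb) (f : LaurentSeries (kA A)) ∧
      ((f : LaurentSeries (kA A)) = 0 → (u : LaurentSeries Qb) = 0) := by
    by_cases hf : (f : LaurentSeries (kA A)) = 0
    · exact ⟨0, by rw [hf]; exact Fermat.Agent.S28.Export.red_zero, fun _ => rfl⟩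
    · obtain ⟨u, hu⟩ := exists_red_of_mem (A := A) M f.2
      exact ⟨u, hu, fun h => absurd h hf⟩
  have hβ : Red A ((heckeBetaBar Kbar M ℓ u : FN (M * ℓ)) : LaurentSeries Qb)
      ((betaFk A M ℓ f : Fk A (M * ℓ)) : LaurentSeries (kA A)) := by
    rw [coe_heckeBetaBar, coe_betaFk]
    exact red_qExpand hu ℓ
  have hred : Red A ((E.heckeF M ℓ u : FN M) : LaurentSeries Qb)
      ((heckeFk A M ℓ f : Fk A M) : LaurentSeries (kA A)) :=
    red_normAlpha hR hp hA M ℓ hℓ hℓM hpM _ _ hβ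
  have hred2 := red_qExpand hred ℓ
  rw [E.qExpand_heckeF M ℓ hℓ hℓM u] at hred2
  by_cases hf : (f : LaurentSeries (kA A)) = 0
  · rw [hu0 hf, map_zero, zero_mul] at hred2
    rw [hf, map_zero]
    exact hred2.unique Fermat.Agent.S28.Export.red_zero
  · have hS := redS_of_red hu hf
    have hprod : C1.RedS A (∏ b ∈ Finset.range ℓ, twist (zetaK ℓ ^ b) (u : LaurentSeries Qb))
        (∏ _b ∈ Finset.range ℓ, (1 : Qb))
        (∏ b ∈ Finset.range ℓ, twist (xi A ℓ ^ b) (f : LaurentSeries (kA A))) := by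
      refine C1.RedS.prod _ fun b _ => ?_
      have := hS.map_twist (zetaK ℓ ^ b) (zetaA A ℓ ^ b) (by
        rw [Units.val_pow_eq_pow_val, Units.val_pow_eq_pow_val]
        push_cast
        rw [coe_zetaA])
      rwa [map_pow] at this
    have hall := (hS.map_qExpand (ℓ * ℓ)).mul hprod
    rw [Finset.prod_const_one, one_mul] at hall
    exact hred2.unique (red_of_redS hall)

end Fermat.Agent.S44.X.Eis

end
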