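/-
S44 / X / EIS, leaf URel (owner helper191): reduction of the Hecke relation `T_ℓ u₁ = u₁^a w^p`.
-/
import Fermat.Agent.S44.X.Eis.Defs
import Fermat.Agent.GAL.E.Exists

set_option autoImplicit false

noncomputable section

namespace Fermat.Agent.S44.X.Eis

open ModularCurve AlgebraicCurve Fermat.Agent.S24 Fermat.Agent.S24.B Fermat.Agent.GAL
  Fermat.Agent.Lib.EtaUnit

/-- the Hecke relation in the function field -/
private theorem uRel_exists_w {N n ℓ : ℕ} [NeZero ℓ] (H : E.HeckeOp N ℓ) (u : E.kum N n) (a : ℕ)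
    (h : H.TW n (E.cls u) = a • E.cls u) :
    ∃ w : (FN N)ˣ, H.T (fn u) = (fn u) ^ a * (w : FN N) ^ n := by
  rw [H.TW_cls, ← E.cls_pow] at h
  have h0 : E.cls ((⟨H.TU (u : (FN N)ˣ), H.TU_mem_kum (u : (FN N)ˣ) u.2⟩ : E.kum N n) *
      (u ^ a)⁻¹) = 0 := by
    rw [E.cls_mul, E.cls_inv, h, add_neg_cancel]
  obtain ⟨w, hw⟩ := (E.cls_eq_zero_iff _).mp h0
  refine ⟨w, ?_⟩
  have h1 : (w ^ n : (FN N)ˣ) = H.TU (u : (FN N)ˣ) * ((u : (FN N)ˣ) ^ a)⁻¹ := hw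
  have h2 : H.TU (u : (FN N)ˣ) = (u : (FN N)ˣ) ^ a * w ^ n := by
    rw [h1, mul_comm (H.TU (u : (FN N)ˣ)), mul_inv_cancel_left]
  have h3 := congrArg (fun x : (FN N)ˣ => (x : FN N)) h2
  simpa [E.HeckeOp.coe_TU] using h3

/-! ### E7: `T_ℓ ū = κ ū^a ḡ^p` -/

theorem exists_TS_ubar (hR : NodeRed) (P : FreyPackage) (M' : ℕ) [NeZero M'] (hpM : ¬ P.p ∣ M')
    (A : ValuationSubring Qb) (hA : A.LiesOverPrime P.p) (W : WeierstrassCurve ℤ)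
    (u₀ u₁ : E.kum (M' * P.p) P.p) (hN : NewPair P M' A W u₀ u₁)
    (ubar : LaurentSeries (kA A)) (hu : IsRed A (fn u₁) ubar)
    (ℓ : ℕ) [NeZero ℓ] (hℓ : ℓ.Prime) (hgood : W.IsGoodPrimeFor ℓ) (hℓN : ¬ ℓ ∣ M' * P.p)
    (a : ℕ) (ha : (a : ZMod P.p) = ((W.apOfModel ℓ : ℤ) : ZMod P.p)) :
    ∃ (κ : kA A) (g : Fk A M'), κ ≠ 0 ∧ g ≠ 0 ∧
      TS (xi A ℓ) ℓ ubar = qExpand (kA A) ℓ
        (HahnSeries.C κ * ubar ^ a * (g : LaurentSeries (kA A)) ^ P.p) := by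
  set H := E.heckeOp (M' * P.p) ℓ hℓ hℓN with hH
  obtain ⟨w, hw⟩ := uRel_exists_w H u₁ a (hN.hecke ℓ hℓ hgood hℓN H a ha).2
  obtain ⟨c₁, hc₁⟩ := redS_of_isRed hu
  obtain ⟨gbar, hg⟩ := hR P.p M' P.pp hpM A hA (w : FN (M' * P.p)) w.ne_zero
  obtain ⟨cg, hcg⟩ := redS_of_isRed hg
  -- the left hand side
  have hL : C1.RedS A (qExpand Kbar ℓ ((H.T (fn u₁) : FN (M' * P.p)) : LaurentSeries Kbar))
      (c₁ * ∏ _b ∈ Finset.range ℓ, c₁) (TS (xi A ℓ) ℓ ubar) := by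
    rw [H.qExpand_T, TS_apply]
    refine (hc₁.map_qExpand (ℓ * ℓ)).mul (C1.RedS.prod _ fun b _ => ?_)
    have := hc₁.map_twist (zetaK ℓ ^ b) (zetaA A ℓ ^ b) (by
      rw [Units.val_pow_eq_pow_val, Units.val_pow_eq_pow_val]
      push_cast
      rw [coe_zetaA])
    rwa [map_pow] at this
  -- the right hand side
  have hRr : C1.RedS A (qExpand Kbar ℓ ((H.T (fn u₁) : FN (M' * P.p)) : LaurentSeries Kbar))
      (c₁ ^ a * cg ^ P.p)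
      (qExpand (kA A) ℓ (ubar ^ a * (gbar : LaurentSeries (kA A)) ^ P.p)) := by
    rw [hw]
    have := ((hc₁.pow a).mul (hcg.pow P.p)).map_qExpand ℓ
    exact this
  obtain ⟨α, -, hα⟩ := hRr.unique hL
  refine ⟨IsLocalRing.residue A (α : A), gbar, ?_, ?_, ?_⟩
  · intro h0
    have h1 : IsUnit (IsLocalRing.residue A (α : A)) := α.isUnit.map _
    exact h1.ne_zero h0
  · intro h0
    apply hcg.red_ne_zero
    rw [h0]; rfl
  · rw [hα, mul_assoc, map_mul (qExpand (kA A) ℓ) (HahnSeries.C _), qExpand_C]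

end Fermat.Agent.S44.X.Eis

end
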