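/-
S44 / X / EIS (owner helper103).  Leaf `Xi`: the reduction of `ζ_ℓ` is a primitive `ℓ`-th root of
unity in the residue field (`ℓ ≠ p`).
-/
import Fermat.Agent.S44.X.Eis.Defs

set_option autoImplicit false

noncomputable section

namespace Fermat.Agent.S44.X.Eis

open ModularCurve AlgebraicCurve Fermat.Agent.S24 Fermat.Agent.S24.B Fermat.Agent.GAL
  Fermat.Agent.Lib.EtaUnit

/-! ### E6: `T_ℓ x̄ = κ x̄^(ℓ+1)` -/

theorem Xi_isPrimitiveRoot_zetaA (A : ValuationSubring Qb) (ℓ : ℕ) [NeZero ℓ] :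
    IsPrimitiveRoot ((zetaA A ℓ : Aˣ) : A) ℓ := by
  have h : IsPrimitiveRoot (A.subtype ((zetaA A ℓ : Aˣ) : A)) ℓ := by
    show IsPrimitiveRoot (((zetaA A ℓ : Aˣ) : A) : Qb) ℓ
    rw [coe_zetaA]
    exact IsPrimitiveRoot.coe_units_iff.2 (isPrimitiveRoot_zetaK ℓ)
  exact IsPrimitiveRoot.of_map_of_injective (f := A.subtype) h Subtype.val_injective

theorem Xi_natCast_eq_zero {p : ℕ} (A : ValuationSubring Qb) (hA : A.LiesOverPrime p) :
    (p : kA A) = 0 := by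
  obtain ⟨ha, hm⟩ := ValuationSubring.mem_nonunits_iff_exists_mem_maximalIdeal.1 hA
  have h1 : (⟨(p : Qb), ha⟩ : A) = (p : A) := Subtype.ext (by simp)
  rw [h1] at hm
  have h2 := (IsLocalRing.residue_eq_zero_iff _).2 hm
  rwa [map_natCast] at h2

theorem isPrimitiveRoot_xi {p : ℕ} (hp : p.Prime) (A : ValuationSubring Qb)
    (hA : A.LiesOverPrime p) (ℓ : ℕ) [NeZero ℓ] (hℓ : ℓ.Prime) (hℓp : ℓ ≠ p) :
    IsPrimitiveRoot (xi A ℓ) ℓ := by
  have : Fact ℓ.Prime := ⟨hℓ⟩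
  have hζ := Xi_isPrimitiveRoot_zetaA A ℓ
  have hpow : xi A ℓ ^ ℓ = 1 := by
    have h1 : zetaA A ℓ ^ ℓ = 1 := Units.ext (by
      rw [Units.val_pow_eq_pow_val, hζ.pow_eq_one, Units.val_one])
    rw [xi, ← map_pow, h1, map_one]
  have hne : xi A ℓ ≠ 1 := by
    intro h
    have h1 : IsLocalRing.residue A ((zetaA A ℓ : Aˣ) : A) = 1 := by
      have := congrArg (fun u : (kA A)ˣ => (u : kA A)) h
      simpa [xi] using this
    have h2 := congrArg (IsLocalRing.residue A) (hζ.geom_sum_eq_zero hℓ.one_lt)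
    rw [map_sum, map_zero] at h2
    simp only [map_pow, h1, one_pow, Finset.sum_const, Finset.card_range, nsmul_eq_mul,
      mul_one] at h2
    have h3 : (p : kA A) = 0 := Xi_natCast_eq_zero A hA
    have hcop : IsCoprime (ℓ : ℤ) (p : ℤ) :=
      Nat.isCoprime_iff_coprime.2 ((Nat.coprime_primes hℓ hp).2 hℓp)
    obtain ⟨a, b, hab⟩ := hcop
    have h4 := congrArg (Int.cast : ℤ → kA A) hab
    push_cast at h4
    rw [h2, h3, mul_zero, mul_zero, add_zero] at h4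
    exact zero_ne_one h4
  have h5 := orderOf_eq_prime hpow hne
  have h6 := IsPrimitiveRoot.orderOf (xi A ℓ)
  rwa [h5] at h6

end Fermat.Agent.S44.X.Eis

end
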