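/-
S44 / X / EIS (architect helper103), leaf EIS-6c (helper270).
`TS` commutes with `q ↦ q^d`; `TS(G₄) = G₄(q^ℓ)^(ℓ+1)`; `TS(x̄) = (κ x̄^(ℓ+1))(q^ℓ)`.
-/
import Fermat.Agent.S44.X.Eis.Defs
import Fermat.Agent.Lib.MulHecke.Comm
import Fermat.Agent.S44.X.Eis.Euler
import Fermat.Agent.S44.X.Eis.G4
import Fermat.Agent.S44.X.Eis.Xi

set_option autoImplicit false

noncomputable section

namespace Fermat.Agent.S44.X.Eis

open ModularCurve AlgebraicCurve Fermat.Agent.S24 Fermat.Agent.S24.B Fermat.Agent.GAL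
  Fermat.Agent.Lib.EtaUnit

/-- `TS` in terms of `prodTw` -/
theorem XBar_TS_eq {C : Type*} [Field C] (ξ : Cˣ) (ℓ : ℕ) [NeZero ℓ] (f : LaurentSeries C) :
    TS ξ ℓ f = qExpand C (ℓ * ℓ) f * Fermat.Agent.Lib.MulHecke.prodTw ξ ℓ f := rfl

/-- `TS` commutes with `q ↦ q^d`, `d` prime to `ℓ` -/
theorem TS_qExpand {C : Type*} [Field C] (ξ : Cˣ) (ℓ d : ℕ) [NeZero ℓ] [NeZero d]
    (hξ : IsPrimitiveRoot ξ ℓ) (hd : Nat.Coprime ℓ d) (f : LaurentSeries C) :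
    TS ξ ℓ (qExpand C d f) = qExpand C d (TS ξ ℓ f) := by
  rw [XBar_TS_eq, XBar_TS_eq, map_mul, Fermat.Agent.Lib.MulHecke.prodTw_qExpand_of_coprime hd hξ,
    Fermat.Agent.Lib.MulHecke.qExpand_qExpand_comm]

/-- the operator `f ↦ f(q^ℓ)^(ℓ+1)` -/
def XBar_Phi (C : Type*) [Field C] (ℓ : ℕ) [NeZero ℓ] : LaurentSeries C →*₀ LaurentSeries C where
  toFun f := qExpand C ℓ f ^ (ℓ + 1)
  map_zero' := by simp
  map_one' := by simp
  map_mul' f g := by rw [map_mul, mul_pow]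

theorem XBar_Phi_apply (C : Type*) [Field C] (ℓ : ℕ) [NeZero ℓ] (f : LaurentSeries C) :
    XBar_Phi C ℓ f = qExpand C ℓ f ^ (ℓ + 1) := rfl

theorem XBar_Phi_qExpand (C : Type*) [Field C] (ℓ d : ℕ) [NeZero ℓ] [NeZero d]
    (f : LaurentSeries C) : XBar_Phi C ℓ (qExpand C d f) = qExpand C d (XBar_Phi C ℓ f) := by
  rw [XBar_Phi_apply, XBar_Phi_apply, map_pow, Fermat.Agent.Lib.MulHecke.qExpand_qExpand_comm]

theorem XBar_Phi_ne_zero (C : Type*) [Field C] (ℓ : ℕ) [NeZero ℓ] {f : LaurentSeries C}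
    (hf : f ≠ 0) : XBar_Phi C ℓ f ≠ 0 := by
  rw [XBar_Phi_apply]
  exact pow_ne_zero _ (fun h => hf (qExpand_injective ℓ (by rw [h, map_zero])))

/-- `toLC` as a ring homomorphism -/
def XBar_toLCHom (C : Type*) [Field C] : PowerSeries ℤ →+* LaurentSeries C :=
  (HahnSeries.ofPowerSeries ℤ C).comp (PowerSeries.map (Int.castRingHom C))

theorem XBar_toLCHom_apply (C : Type*) [Field C] (P : PowerSeries ℤ) :
    XBar_toLCHom C P = toLC C P := rfl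

theorem XBar_coeff_ofPowerSeries {R : Type*} [CommRing R] (g : PowerSeries R) (i : ℤ) :
    (HahnSeries.ofPowerSeries ℤ R g).coeff i =
      if i < 0 then 0 else PowerSeries.coeff i.natAbs g := PowerSeries.coeff_coe g i

theorem XBar_toLC_expand (C : Type*) [Field C] (d : ℕ) [NeZero d] (hd : d ≠ 0)
    (P : PowerSeries ℤ) : toLC C (PowerSeries.expand d hd P) = qExpand C d (toLC C P) := by
  unfold toLC
  ext n
  by_cases hn : (d : ℤ) ∣ n
  · obtain ⟨m, rfl⟩ := hn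
    rw [qExpand_coeff_mul, XBar_coeff_ofPowerSeries, XBar_coeff_ofPowerSeries]
    have hpos : (0 : ℤ) < d := by exact_mod_cast Nat.pos_of_ne_zero hd
    by_cases hm : m < 0
    · rw [if_pos hm, if_pos (mul_neg_of_pos_of_neg hpos hm)]
    · rw [if_neg hm, if_neg (not_lt.mpr (mul_nonneg hpos.le (not_lt.mp hm))), PowerSeries.coeff_map,
        PowerSeries.coeff_map, Int.natAbs_mul, Int.natAbs_natCast, PowerSeries.coeff_expand_mul]
  · rw [qExpand_coeff_of_not_dvd _ _ hn, XBar_coeff_ofPowerSeries]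
    split_ifs with h0
    · rfl
    · rw [PowerSeries.coeff_map, PowerSeries.coeff_expand_of_not_dvd, map_zero]
      intro h
      exact hn (Int.natCast_dvd.mpr h)

theorem XBar_toLC_ne_zero (C : Type*) [Field C] {P : PowerSeries ℤ}
    (hP : PowerSeries.constantCoeff P = 1) : toLC C P ≠ 0 := by
  intro h
  have h1 := congrArg (fun s : LaurentSeries C => s.coeff 0) h
  simp only [toLC, XBar_coeff_ofPowerSeries, lt_self_iff_false, if_false, Int.natAbs_zero,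
    PowerSeries.coeff_map, PowerSeries.coeff_zero_eq_constantCoeff_apply, hP,
    HahnSeries.coeff_zero] at h1
  simp at h1

/-- `TS` and `f ↦ f(q^ℓ)^(ℓ+1)` agree on `E(q^d)`, `d` prime to `ℓ` -/
theorem XBar_TS_eta {C : Type*} [Field C] (ξ : Cˣ) (ℓ d : ℕ) [NeZero ℓ] [NeZero d]
    (hℓ : ℓ.Prime) (hξ : IsPrimitiveRoot ξ ℓ) (hd : Nat.Coprime ℓ d) :
    TS ξ ℓ (qExpand C d (toLC C etaProd)) = XBar_Phi C ℓ (qExpand C d (toLC C etaProd)) := by
  rw [TS_qExpand ξ ℓ d hξ hd, TS_etaProd ξ ℓ hℓ hξ, XBar_Phi_qExpand, XBar_Phi_apply]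

theorem TS_G4s {C : Type*} [Field C] (ξ : Cˣ) (ℓ : ℕ) [NeZero ℓ] (hℓ : ℓ.Prime) (hℓ2 : ℓ ≠ 2)
    (hξ : IsPrimitiveRoot ξ ℓ) :
    TS ξ ℓ (toLC C G4s) = qExpand C ℓ (toLC C G4s) ^ (ℓ + 1) := by
  have h2 : Nat.Coprime ℓ 2 := (Nat.coprime_primes hℓ Nat.prime_two).mpr hℓ2
  have h4 : Nat.Coprime ℓ 4 := Nat.Coprime.pow_right 2 h2
  have e0 : toLC C etaProd ≠ 0 := XBar_toLC_ne_zero C constantCoeff_etaProd
  have key : toLC C G4s * (toLC C etaProd ^ 4 * qExpand C 4 (toLC C etaProd) ^ 4) =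
      qExpand C 2 (toLC C etaProd) ^ 10 := by
    have := congrArg (XBar_toLCHom C) G4s_mul_eq
    simp only [map_mul, map_pow, XBar_toLCHom_apply, XBar_toLC_expand] at this
    exact this
  have k1 := congrArg (TS ξ ℓ) key
  have k2 := congrArg (XBar_Phi C ℓ) key
  simp only [map_mul, map_pow] at k1 k2
  have hE : TS ξ ℓ (toLC C etaProd) = XBar_Phi C ℓ (toLC C etaProd) := TS_etaProd ξ ℓ hℓ hξ
  rw [hE, XBar_TS_eta ξ ℓ 4 hℓ hξ h4, XBar_TS_eta ξ ℓ 2 hℓ hξ h2, ← k2] at k1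
  have hne : XBar_Phi C ℓ (toLC C etaProd) ^ 4 *
      XBar_Phi C ℓ (qExpand C 4 (toLC C etaProd)) ^ 4 ≠ 0 := by
    refine mul_ne_zero (pow_ne_zero _ (XBar_Phi_ne_zero C ℓ e0)) (pow_ne_zero _
      (XBar_Phi_ne_zero C ℓ (fun h => e0 (qExpand_injective 4 (by rw [h, map_zero])))))
  exact mul_right_cancel₀ hne k1

theorem XBar_TS_C {C : Type*} [Field C] (ξ : Cˣ) (ℓ : ℕ) [NeZero ℓ] (c : C) :
    TS ξ ℓ (HahnSeries.C c) = XBar_Phi C ℓ (HahnSeries.C c) := by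
  rw [TS_apply, XBar_Phi_apply, qExpand_C, qExpand_C]
  simp only [twist_C, Finset.prod_const, Finset.card_range]
  rw [pow_succ, mul_comm]

theorem XBar_coeffMap_ofPowerSeries {R S : Type*} [CommRing R] [CommRing S] (φ : R →+* S)
    (P : PowerSeries ℤ) :
    coeffMap φ (HahnSeries.ofPowerSeries ℤ R (P.map (Int.castRingHom R))) =
      HahnSeries.ofPowerSeries ℤ S (P.map (Int.castRingHom S)) := by
  ext n
  rw [coeffMap_coeff, XBar_coeff_ofPowerSeries, XBar_coeff_ofPowerSeries]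
  split_ifs
  · rw [map_zero]
  · rw [PowerSeries.coeff_map, PowerSeries.coeff_map]
    simp

theorem exists_TS_xbar {p : ℕ} [NeZero p] (hp : p.Prime) (hp4 : Nat.Coprime p 4)
    (A : ValuationSubring Qb) (hA : A.LiesOverPrime p) (M' : ℕ) [NeZero M']
    (xbar : LaurentSeries (kA A)) (hx : IsRed A (xU p M' hp4) xbar)
    (ℓ : ℕ) [NeZero ℓ] (hℓ : ℓ.Prime) (hℓ2 : ℓ ≠ 2) (hℓp : ℓ ≠ p) :
    ∃ κ : kA A, κ ≠ 0 ∧
      TS (xi A ℓ) ℓ xbar = qExpand (kA A) ℓ (HahnSeries.C κ * xbar ^ (ℓ + 1)) := by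
  have hξ : IsPrimitiveRoot (xi A ℓ) ℓ := isPrimitiveRoot_xi hp A hA ℓ hℓ hℓp
  have hℓp' : Nat.Coprime ℓ p := (Nat.coprime_primes hℓ hp).mpr hℓp
  -- the integral model of `G₄`
  let GA : LaurentSeries A := HahnSeries.ofPowerSeries ℤ A (G4s.map (Int.castRingHom A))
  have hincl : E.incl A GA = toL G4s := XBar_coeffMap_ofPowerSeries _ _
  have hred : E.red A GA = toLC (kA A) G4s := XBar_coeffMap_ofPowerSeries _ _
  have hG0 : toLC (kA A) G4s ≠ 0 := XBar_toLC_ne_zero _ isW1_G4.const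
  have r1 : C1.RedS A (toL G4s) 1 (toLC (kA A) G4s) := by
    have := C1.RedS.of_integral GA (by rw [hred]; exact hG0)
    rwa [hincl, hred] at this
  have r2 : C1.RedS A (xser G4s p) (1 / 1)
      (toLC (kA A) G4s / qExpand (kA A) p (toLC (kA A) G4s)) := r1.div (r1.map_qExpand p)
  obtain ⟨c, r3⟩ := redS_of_isRed hx
  have r3' : C1.RedS A (xser G4s p) c xbar := r3
  obtain ⟨a, -, hxb⟩ := r2.unique r3'
  refine ⟨1, one_ne_zero, ?_⟩
  have hfin : TS (xi A ℓ) ℓ xbar = XBar_Phi (kA A) ℓ xbar := by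
    rw [hxb, map_mul, map_mul, map_div₀, map_div₀, XBar_TS_C, TS_qExpand _ ℓ p hξ hℓp',
      TS_G4s _ ℓ hℓ hℓ2 hξ, XBar_Phi_qExpand, XBar_Phi_apply _ _ (toLC (kA A) G4s)]
  rw [hfin, XBar_Phi_apply, map_one, one_mul, map_pow]

end Fermat.Agent.S44.X.Eis

end
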