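/-
S44 / X / EIS (owner helper103).  `nodeEisW_of : NodeRed → NodeEisW` (a constant slope vector is
Eisenstein), assembled from the leaves of this directory.
-/
import Fermat.Agent.S44.X.Eis.QExpNorm
import Fermat.Agent.S44.X.Eis.Preserve
import Fermat.Agent.S44.X.Eis.XBar
import Fermat.Agent.S44.X.Eis.URel

set_option autoImplicit false

noncomputable section

namespace Fermat.Agent.S44.X.Eis

open ModularCurve AlgebraicCurve Fermat.Agent.S24 Fermat.Agent.S24.B Fermat.Agent.GAL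
  Fermat.Agent.Lib.EtaUnit

theorem coe_algebraMap_Fk (A : ValuationSubring Qb) (M : ℕ) (κ : kA A) :
    ((algebraMap (kA A) (Fk A M) κ : Fk A M) : LaurentSeries (kA A)) = HahnSeries.C κ := by
  show algebraMap (kA A) (LaurentSeries (kA A)) κ = HahnSeries.C κ
  rw [algebraMap_laurentSeries_eq_single]
  rfl

theorem eis_core (hR : NodeRed) (P : FreyPackage) (M' : ℕ) [NeZero M'] (hpM : ¬ P.p ∣ M')
    (A : ValuationSubring Qb) (hA : A.LiesOverPrime P.p) (W : WeierstrassCurve ℤ)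
    (u₀ u₁ : E.kum (M' * P.p) P.p) (hN : NewPair P M' A W u₀ u₁)
    (ubar : Fk A M') (hu : IsRed A (fn u₁) (ubar : LaurentSeries (kA A)))
    (xbar : Fk A (M' * 4)) (hx : IsRed A (xU P.p M' (coprime_four P)) (xbar : LaurentSeries (kA A)))
    (ℓ : ℕ) (hℓ : ℓ.Prime) (hgood : W.IsGoodPrimeFor ℓ) (hℓN : ¬ ℓ ∣ M' * P.p) (hℓ2 : ℓ ≠ 2)
    (hne : ((W.apOfModel ℓ : ℤ) : ZMod P.p) ≠ (ℓ : ZMod P.p) + 1)
    (c : ℤ) (h1 : ∀ w : Place (kA A) (Fk A (M' * 4)), 0 ≤ w.ord (jk A (M' * 4)) →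
      (P.p : ℤ) ∣ w.ord (inclFk A M' 4 ubar) - c * w.ord xbar)
    (w : Place (kA A) (Fk A (M' * 4))) (hw : 0 ≤ w.ord (jk A (M' * 4))) :
    (P.p : ℤ) ∣ c * w.ord xbar := by
  haveI : NeZero ℓ := ⟨hℓ.ne_zero⟩
  haveI : Fact P.p.Prime := ⟨P.pp⟩
  have hℓp : ℓ ≠ P.p := by
    rintro rfl
    exact hℓN (dvd_mul_left _ _)
  have hℓM' : ¬ ℓ ∣ M' := fun h => hℓN (h.mul_right _)
  have hℓM4 : ¬ ℓ ∣ M' * 4 := by
    intro h
    rcases (Nat.Prime.dvd_mul hℓ).1 h with h | h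
    · exact hℓM' h
    · have h2 : ℓ ∣ 2 ^ 2 := by simpa using h
      exact hℓ2 ((Nat.prime_dvd_prime_iff_eq hℓ Nat.prime_two).1 (hℓ.dvd_of_dvd_pow h2))
  have hpM4ℓ : ¬ P.p ∣ M' * 4 * ℓ := by
    intro h
    rcases (Nat.Prime.dvd_mul P.pp).1 h with h | h
    · exact hpM ((coprime_four P).dvd_of_dvd_mul_right h)
    · exact hℓp ((Nat.prime_dvd_prime_iff_eq P.pp hℓ).1 h).symm
  -- the eigenvalue
  obtain ⟨a, ha⟩ : ∃ a : ℕ, (a : ZMod P.p) = ((W.apOfModel ℓ : ℤ) : ZMod P.p) :=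
    ⟨(((W.apOfModel ℓ : ℤ) : ZMod P.p)).val, ZMod.natCast_zmod_val _⟩
  obtain ⟨κ₁, g, hκ₁, hg, hTu⟩ := exists_TS_ubar hR P M' hpM A hA W u₀ u₁ hN _ hu ℓ hℓ hgood hℓN a ha
  obtain ⟨κ₂, hκ₂, hTx⟩ := exists_TS_xbar P.pp (coprime_four P) A hA M' _ hx ℓ hℓ hℓ2 hℓp
  -- nonvanishing
  have hu0 : ubar ≠ 0 := by
    obtain ⟨c', h⟩ := redS_of_isRed hu
    intro h0
    exact h.red_ne_zero (by rw [h0]; rfl)
  have hx0 : xbar ≠ 0 := by
    obtain ⟨c', h⟩ := redS_of_isRed hx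
    intro h0
    exact h.red_ne_zero (by rw [h0]; rfl)
  set U : Fk A (M' * 4) := inclFk A M' 4 ubar with hU
  set G : Fk A (M' * 4) := inclFk A M' 4 g with hG
  have hU0 : U ≠ 0 := (map_ne_zero _).2 hu0
  have hG0 : G ≠ 0 := (map_ne_zero _).2 hg
  -- the auxiliary function
  set v : Fk A (M' * 4) := U * xbar ^ (-c) with hv
  have hordv : ∀ w' : Place (kA A) (Fk A (M' * 4)), w'.ord v = w'.ord U - c * w'.ord xbar := by
    intro w'
    rw [hv, w'.ord_mul hU0 (zpow_ne_zero _ hx0), w'.ord_zpow]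
    ring
  have hvoff : OffCusp A (M' * 4) (P.p : ℤ) v := by
    intro w' hw'
    rw [hordv]
    exact h1 w' hw'
  have hToff := OffCusp.heckeFk hR P.pp A hA (M' * 4) ℓ hℓ hℓM4 hpM4ℓ hvoff
  -- the value of the Hecke operator
  have key : heckeFk A (M' * 4) ℓ v =
      algebraMap (kA A) (Fk A (M' * 4)) κ₁ * U ^ a * G ^ P.p *
        (algebraMap (kA A) (Fk A (M' * 4)) κ₂ * xbar ^ (ℓ + 1)) ^ (-c) := by
    apply Subtype.ext
    apply qExpand_injective (R := kA A) ℓ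
    rw [qExpand_heckeFk hR P.pp A hA (M' * 4) ℓ hℓ hℓM4 hpM4ℓ v]
    have hz : ∀ (y : Fk A (M' * 4)) (n : ℤ),
        ((y ^ n : Fk A (M' * 4)) : LaurentSeries (kA A)) = (y : LaurentSeries (kA A)) ^ n :=
      fun y n => map_zpow₀ (modularFunctionFieldFullC (kA A) (M' * 4)).val y n
    have e1 : ((v : Fk A (M' * 4)) : LaurentSeries (kA A)) =
        (ubar : LaurentSeries (kA A)) * (xbar : LaurentSeries (kA A)) ^ (-c) := by
      rw [hv, IntermediateField.coe_mul, hz, hU, coe_inclFk]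
    have e2 : ((algebraMap (kA A) (Fk A (M' * 4)) κ₁ * U ^ a * G ^ P.p *
        (algebraMap (kA A) (Fk A (M' * 4)) κ₂ * xbar ^ (ℓ + 1)) ^ (-c) : Fk A (M' * 4)) :
          LaurentSeries (kA A)) =
        HahnSeries.C κ₁ * (ubar : LaurentSeries (kA A)) ^ a * (g : LaurentSeries (kA A)) ^ P.p *
          (HahnSeries.C κ₂ * (xbar : LaurentSeries (kA A)) ^ (ℓ + 1)) ^ (-c) := by
      rw [IntermediateField.coe_mul, hz, IntermediateField.coe_mul, IntermediateField.coe_mul,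
        IntermediateField.coe_mul, IntermediateField.coe_pow, IntermediateField.coe_pow,
        IntermediateField.coe_pow, hU, hG, coe_inclFk, coe_inclFk, coe_algebraMap_Fk,
        coe_algebraMap_Fk]
    rw [e1, e2, map_mul, map_zpow₀, hTu, hTx,
      map_mul (qExpand (kA A) ℓ) (HahnSeries.C κ₁ * (ubar : LaurentSeries (kA A)) ^ a *
        (g : LaurentSeries (kA A)) ^ P.p), map_zpow₀]
  have hκ₁' : algebraMap (kA A) (Fk A (M' * 4)) κ₁ ≠ 0 := (map_ne_zero _).2 hκ₁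
  have hκ₂' : algebraMap (kA A) (Fk A (M' * 4)) κ₂ ≠ 0 := (map_ne_zero _).2 hκ₂
  have hord : w.ord (heckeFk A (M' * 4) ℓ v) =
      a * w.ord v + P.p * w.ord G + ((a : ℤ) - ℓ - 1) * (c * w.ord xbar) := by
    rw [key, w.ord_mul (mul_ne_zero (mul_ne_zero hκ₁' (pow_ne_zero _ hU0)) (pow_ne_zero _ hG0))
        (zpow_ne_zero _ (mul_ne_zero hκ₂' (pow_ne_zero _ hx0))),
      w.ord_mul (mul_ne_zero hκ₁' (pow_ne_zero _ hU0)) (pow_ne_zero _ hG0),
      w.ord_mul hκ₁' (pow_ne_zero _ hU0), w.ord_zpow, w.ord_mul hκ₂' (pow_ne_zero _ hx0),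
      FF.ord_algebraMap, FF.ord_algebraMap, FF.ord_pow, FF.ord_pow, FF.ord_pow, hordv]
    push_cast
    ring
  have h2 : (P.p : ℤ) ∣ ((a : ℤ) - ℓ - 1) * (c * w.ord xbar) := by
    have h3 := hToff w hw
    rw [hord] at h3
    have h4 : (P.p : ℤ) ∣ a * w.ord v + P.p * w.ord G :=
      dvd_add (Dvd.dvd.mul_left (hvoff w hw) _) (dvd_mul_right _ _)
    exact (dvd_add_right h4).1 h3
  have hpr : Prime (P.p : ℤ) := Nat.prime_iff_prime_int.1 P.pp
  rcases hpr.dvd_or_dvd h2 with h | h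
  · exfalso
    apply hne
    have h5 : (((a : ℤ) - ℓ - 1 : ℤ) : ZMod P.p) = 0 := (ZMod.intCast_zmod_eq_zero_iff_dvd _ _).2 h
    push_cast at h5
    rw [← ha]
    linear_combination h5
  · exact h

end Fermat.Agent.S44.X.Eis

end

namespace Fermat.Agent.S44.X.Eis

open ModularCurve AlgebraicCurve Fermat.Agent.S24 Fermat.Agent.S24.B Fermat.Agent.GAL
  Fermat.Agent.Lib.EtaUnit

theorem nodeEisW_of (hR : NodeRed) : NodeEisW := by
  intro P M' _ hsq A hA W u₀ u₁ hN ubar hu xbar hx c h1 w hw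
  have hpM : ¬ P.p ∣ M' := by
    rintro ⟨c, rfl⟩
    have h := Nat.squarefree_iff_prime_squarefree.mp hsq P.p P.pp
    exact h ⟨c, by ring⟩
  obtain ⟨ℓ, hℓ, hℓ2, hgood, hℓN, hne⟩ := hN.nonEis
  exact eis_core hR P M' hpM A hA W u₀ u₁ hN ubar hu xbar hx ℓ hℓ hgood hℓN hℓ2 hne c h1 w hw

end Fermat.Agent.S44.X.Eis
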